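import Fermat.Agent.Global.Bridge.Unramified
import Fermat.Agent.Global.CFT.Units
import Fermat.Agent.Global.Duality.Orth

/-!
Idelic data of two-classes with values in roots of unity; trivial classes give unit extensions.
-/

set_option autoImplicit false
set_option linter.unusedSectionVars false
set_option linter.unusedVariables false
set_option synthInstance.maxHeartbeats 100000

noncomputable section

namespace FLTAgent.Global

variable (S : Finset Nat.Primes) {X : Type*} [AddCommGroup X] [DistribMulAction GQ X]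

/-- A class in `Ш²_S` of the additive functions from `X` to roots of unity. -/
structure IsSha2 (c : GQ → GQ → Fn X QMul) : Prop where
  unr : ∃ L : Level, (∀ q ∉ S, L.UnrAt q) ∧ IsZ2 (⊤ : Subgroup GQ) L.grp c
  addv : ∀ g h, del (c g h) = 0
  loc : ∀ q ∈ S, ∃ (L : Level) (k : GQ → Fn X QMul), IsLvl1 (dec q) L.grp k ∧
    (∀ g ∈ dec q, del (k g) = 0) ∧ ∀ g ∈ dec q, ∀ h ∈ dec q, c g h = dd1 k g h

/-- A class that is trivial on the group of `ℚ_S`. -/
def IsTriv (c : GQ → GQ → Fn X QMul) : Prop :=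
  ∃ L : Level, (∀ q ∉ S, L.UnrAt q) ∧ ∃ k : GQ → Fn X QMul, IsLvl1 (⊤ : Subgroup GQ) L.grp k ∧
    (∀ g, del (k g) = 0) ∧ ∀ g h, c g h = dd1 k g h

/-- An idelic datum of a two-class: `β` splits the class in functions to `ℚ̄ˣ`, and `a` is a
cocycle of ideles whose defect of invariance is `del β`. -/
structure Datum (c : GQ → GQ → Fn X QMul) (a : Fn (X × X) Idele) (β : GQ → Fn X QMul) : Prop where
  sym : a ∈ symCoc
  lvl : ∃ L : Level, (∀ s ∈ L.grp, s • a = a) ∧ IsLvl1 (⊤ : Subgroup GQ) L.grp β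
  coc : ∀ g h, c g h = dd1 β g h
  eqv : ∀ g, g • a - a = Fn.map principal (del (β g))
  loc : ∀ q ∉ S, ∃ L2 : Level, L2.UnrAt q ∧ ∃ w : Fn X (Semi q),
    IsLvl1 (⊤ : Subgroup GQ) L2.grp (fun g => Fn.map (qc q) (β g) - dd0 w g) ∧
    (∀ g x, (Fn.map (qc q) (β g) - dd0 w g) x ∈ semiUnit q) ∧
    ∀ z, comp q (a z) - del w z ∈ semiUnit q

variable {S}

/-- Classes of functions with values in ideles. -/
abbrev clFn {Y : Type*} : Fn Y Idele →+ Fn Y Cl := Fn.map (B := Cl) toCl

lemma toCl_smul' (g : GQ) (x : Idele) : toCl (g • x) = g • toCl x := (smul_toCl g x).symm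

lemma clFn_smul {Y : Type*} [MulAction GQ Y] (g : GQ) (w : Fn Y Idele) : clFn (g • w) = g • clFn w :=
  Fn.map_smul (B := Cl) toCl_smul' g w

/-- The extension by idele classes attached to a datum. -/
def dExt (a : Fn (X × X) Idele) : Pre GQ X Cl := (clFn a, 0)

lemma toCl_principal (b : QMul) : toCl (principal b) = 0 := toCl_eq_zero_iff.2 ⟨b, rfl⟩

lemma clFn_principal {Y : Type*} (w : Fn Y QMul) : clFn (Fn.map principal w) = 0 :=
  Fn.ext fun y => toCl_principal _

lemma dExt_add (a a' : Fn (X × X) Idele) : dExt (a + a') = dExt a + dExt a' :=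
  Prod.ext (map_add clFn a a') (funext fun _ => (add_zero (0 : Fn X Cl)).symm)

lemma dExt_nsmul (n : ℕ) (a : Fn (X × X) Idele) : dExt (n • a) = n • dExt a :=
  Prod.ext (map_nsmul clFn n a) (funext fun _ => (smul_zero (A := Fn X Cl) n).symm)

variable {c c' : GQ → GQ → Fn X QMul} {a a' : Fn (X × X) Idele} {β β' : GQ → Fn X QMul}

lemma Datum.isExt (D : Datum S c a β) (N : Subgroup GQ) :
    IsExt (⊤ : Subgroup GQ) N (dExt a) := by
  refine isExt_zero_snd (Fn.map_mem_symCoc D.sym) fun g _ => ?_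
  have := congrArg clFn (D.eqv g)
  rw [map_sub, clFn_smul, clFn_principal] at this
  exact sub_eq_zero.1 this

lemma Datum.zero : Datum S (0 : GQ → GQ → Fn X QMul) 0 0 where
  sym := zero_mem _
  lvl := ⟨Level.bot, fun s _ => smul_zero (A := Fn (X × X) Idele) s, fun _ _ _ _ => rfl⟩
  coc g h := by simp [dd1]
  eqv g := by
    rw [Pi.zero_apply, map_zero, map_zero, sub_zero]
    exact smul_zero (A := Fn (X × X) Idele) g
  loc q _ := ⟨Level.bot, fun A _ s _ => by
    show s ∈ (⊥ : IntermediateField ℚ QQbar).fixingSubgroup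
    rw [IntermediateField.fixingSubgroup_bot]; trivial, 0, fun g _ s _ => by simp [dd0],
    fun g x => by simp [dd0, Fn.zero_apply], fun z => by
      simp [Fn.zero_apply]⟩

lemma Datum.add (D : Datum S c a β) (D' : Datum S c' a' β') :
    Datum S (c + c') (a + a') (β + β') where
  sym := add_mem D.sym D'.sym
  lvl := by
    obtain ⟨L, h, hb⟩ := D.lvl
    obtain ⟨L', h', hb'⟩ := D'.lvl
    exact ⟨L.sup L', fun s hs => by rw [smul_add, h s (L.sup_left L' hs), h' s (L.sup_right L' hs)],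
      (hb.mono le_rfl (L.sup_left L')).add (hb'.mono le_rfl (L.sup_right L'))⟩
  coc g h := by rw [Pi.add_apply, Pi.add_apply, D.coc, D'.coc, dd1_add]
  eqv g := by
    rw [Pi.add_apply, map_add del, map_add, ← D.eqv g, ← D'.eqv g, smul_add]
    abel
  loc q hq := by
    obtain ⟨L, hL, w, h1, h2, h3⟩ := D.loc q hq
    obtain ⟨L', hL', w', h1', h2', h3'⟩ := D'.loc q hq
    have e : ∀ g, Fn.map (qc q) ((β + β') g) - dd0 (w + w') g
        = (Fn.map (qc q) (β g) - dd0 w g) + (Fn.map (qc q) (β' g) - dd0 w' g) := fun g => by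
      rw [Pi.add_apply, map_add]
      simp only [dd0, smul_add]
      abel
    refine ⟨L.sup L', hL.sup hL', w + w', fun g hg s hs => ?_, fun g x => ?_, fun z => ?_⟩
    · simp only [e]
      exact ((h1.mono le_rfl (L.sup_left L')).add (h1'.mono le_rfl (L.sup_right L'))) g hg s hs
    · rw [e]; exact add_mem (h2 g x) (h2' g x)
    · rw [Fn.add_apply, map_add del, Fn.add_apply, map_add, add_sub_add_comm]
      exact add_mem (h3 z) (h3' z)

lemma Datum.neg (D : Datum S c a β) : Datum S (-c) (-a) (-β) where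
  sym := neg_mem D.sym
  lvl := by
    obtain ⟨L, h, hb⟩ := D.lvl
    exact ⟨L, fun s hs => by rw [smul_neg, h s hs], fun g hg s hs => congrArg Neg.neg (hb g hg s hs)⟩
  coc g h := by
    rw [Pi.neg_apply, Pi.neg_apply, D.coc]
    simp only [dd1, Pi.neg_apply, smul_neg]
    abel
  eqv g := by
    rw [Pi.neg_apply, map_neg del, map_neg, ← D.eqv g, smul_neg]
    abel
  loc q hq := by
    obtain ⟨L, hL, w, h1, h2, h3⟩ := D.loc q hq
    have e : ∀ g, Fn.map (qc q) ((-β) g) - dd0 (-w) g = -(Fn.map (qc q) (β g) - dd0 w g) := fun g => by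
      rw [Pi.neg_apply, map_neg]
      simp only [dd0, smul_neg]
      abel
    refine ⟨L, hL, -w, fun g hg s hs => ?_, fun g x => ?_, fun z => ?_⟩
    · simp only [e]
      exact congrArg Neg.neg (h1 g hg s hs)
    · rw [e]; exact neg_mem (h2 g x)
    · rw [Fn.neg_apply, map_neg del, Fn.neg_apply, map_neg, ← neg_sub']
      exact neg_mem (h3 z)

lemma Datum.nsmul (D : Datum S c a β) (n : ℕ) : Datum S (n • c) (n • a) (n • β) := by
  induction n with
  | zero => simpa using Datum.zero
  | succ n ih => simpa only [succ_nsmul] using ih.add D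

lemma Datum.congr (D : Datum S c a β) (h : ∀ g k, c' g k = c g k) : Datum S c' a β :=
  { D with coc := fun g k => (h g k).trans (D.coc g k) }

lemma nsmul_eq_zero_of_del {p : ℕ} {A : Type*} [AddCommGroup A] {w : Fn X A} (hp : ∀ x : X, p • x = 0)
    (h : del w = 0) (x : X) : p • w x = 0 := by
  rw [← sum_del_range w hp x, h]
  exact Finset.sum_eq_zero fun k _ => rfl

lemma semiUnit_qc_of_del {p : ℕ} (hp0 : p ≠ 0) (hp : ∀ x : X, p • x = 0) {w : Fn X QMul} (h : del w = 0)
    (q : Nat.Primes) (x : X) : qc q (w x) ∈ semiUnit q := by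
  refine semiUnit_of_nsmul hp0 ?_
  rw [← map_nsmul, nsmul_eq_zero_of_del hp h, map_zero]
  exact zero_mem _

variable {p : ℕ} [Fact p.Prime] [Finite X]

/-- An invariant `q`-part of a function whose defect of invariance consists of units of an
unramified level. -/
theorem exists_invariant_qpart {q : Nat.Primes} {L3 : Level} (hq : L3.UnrAt q)
    (hX3 : ∀ s ∈ L3.grp, ∀ x : X, s • x = x) {V : Fn X (Semi q)}
    (hdVl : IsLvl1 (⊤ : Subgroup GQ) L3.grp (dd0 (Γ := GQ) V)) (hdVu : ∀ (g : GQ) (x : X), (dd0 V g) x ∈ semiUnit q) :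
    ∃ Q : Fn X (Semi q), (∀ g : GQ, g • Q = Q) ∧ ∀ x, V x - Q x ∈ semiUnit q := by
  have hVfix : ∀ x, V x ∈ fixSub (A := Semi q) L3.grp := fun x s hs => by
    have e := hdVl 1 trivial s hs
    simp only [one_mul, dd0, one_smul, sub_self, sub_eq_zero] at e
    have := congrArg (fun F : Fn X (Semi q) => F (s • x)) e
    simp only [Fn.smul_apply, inv_smul_smul] at this
    rwa [hX3 s hs x] at this
  obtain ⟨Q, hQ⟩ : ∃ Q : Fn X (Semi q), ∀ x, IsQPart (V x) (Q x) :=
    ⟨fun x => (exists_isQPart hq (hVfix x)).choose, fun x => (exists_isQPart hq (hVfix x)).choose_spec.2⟩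
  refine ⟨Q, fun g => Fn.ext fun y => ?_, fun x => (hQ x).sub_mem⟩
  show g • Q (g⁻¹ • y) = Q y
  have h4 : IsQPart (g • V (g⁻¹ • y)) (g • Q (g⁻¹ • y)) := (hQ _).smul g
  have h5 : IsQPart (g • V (g⁻¹ • y)) (0 + Q y) := by
    have := (isQPart_of_mem_semiUnit (hdVu g y)).add (hQ y)
    rwa [show (dd0 V g) y = g • V (g⁻¹ • y) - V y from rfl, sub_add_cancel] at this
  rw [h4.unique h5, zero_add]

/-- An invariant cocycle of ideles with invariant corrections outside `S` is a unit extension. -/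
theorem inU_of_invariant (hp : ∀ x : X, p • x = 0) {K : Level} (hX : ∀ s ∈ K.grp, ∀ x : X, s • x = x)
    {a0 : Fn (X × X) Idele} (hs : a0 ∈ symCoc) (ha0g : ∀ g : GQ, g • a0 = a0)
    (h : ∀ q, q ∉ S → ∃ Q : Fn X (Semi q), (∀ g : GQ, g • Q = Q) ∧
      ∀ z, comp q (a0 z) - del Q z ∈ semiUnit q) :
    InU S (dExt a0) := by
  classical
  have hp0 : p ≠ 0 := (Fact.out : p.Prime).ne_zero
  have h' : ∀ q, ∃ Q : Fn X (Semi q), (∀ g : GQ, g • Q = Q) ∧
      (q ∉ S → ∀ z, comp q (a0 z) - del Q z ∈ semiUnit q) ∧ (q ∈ S → Q = 0) := fun q => by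
    by_cases hq : q ∈ S
    · exact ⟨0, fun g => smul_zero (A := Fn X (Semi q)) g, fun h => absurd hq h, fun _ => rfl⟩
    · obtain ⟨Q, h1, h2⟩ := h q hq
      exact ⟨Q, h1, fun _ => h2, fun h => absurd h hq⟩
  choose Q hQg hQu hQS using h'
  have hQfix : ∀ x q, Q q x ∈ fixSub (A := Semi q) K.grp := fun x q s hs => by
    have := congrArg (fun F : Fn X (Semi q) => F (s • x)) (hQg q s)
    simp only [Fn.smul_apply, inv_smul_smul] at this
    rwa [hX s hs x] at this
  have hfin : ∀ x, {q | Q q x ∉ semiUnit q}.Finite := fun x => by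
    refine (S.finite_toSet.union (Set.finite_iUnion fun z => (a0 z).2.2)).subset fun q hq => ?_
    by_contra hn
    simp only [Set.mem_union, Finset.mem_coe, Set.mem_iUnion, Set.mem_ofPred_eq, not_or, not_exists,
      not_not] at hn
    refine hq (semiUnit_of_del hp0 hp (fun z => ?_) x)
    have h := sub_mem (show comp q (a0 z) ∈ semiUnit q from hn.2 z) (hQu q hn.1 z)
    rwa [sub_sub_cancel] at h
  obtain ⟨W, hW⟩ : ∃ W : Fn X Idele, ∀ q x, comp q (W x) = Q q x :=
    ⟨fun x => mkIdele K (fun q => Q q x) (hQfix x) (hfin x), fun q x => rfl⟩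
  have hWg : ∀ g : GQ, g • W = W := fun g => Fn.ext fun x => idele_ext fun q => by
    rw [Fn.smul_apply, comp_smul, hW, hW]
    exact congrArg (fun F : Fn X (Semi q) => F x) (hQg q g)
  refine ⟨K, (a0 - del W, 0), isExt_zero_snd (sub_mem hs (del_mem_symCoc W)) fun g _ => ?_,
    fun q hq => ⟨fun z => ?_, fun g x => map_zero (comp q)⟩, ⟨-clFn W, ?_, fun g _ => ?_⟩⟩
  · rw [smul_sub, ha0g, smul_del, hWg]
  · show comp q (a0 z - del W z) ∈ semiUnit q
    obtain ⟨m, n⟩ := z
    rw [del_apply, map_sub, map_sub, map_add, hW, hW, hW, ← del_apply]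
    exact hQu q hq (m, n)
  · show clFn (a0 - del W) - clFn a0 = _
    rw [map_neg, del_map, map_sub]
    abel
  · show clFn (0 : Fn X Idele) - (0 : Fn X Cl) = _
    rw [map_zero, sub_self, dd0, smul_neg, ← clFn_smul, hWg, sub_self]

/-- **A datum of a trivial class is a unit extension outside `S`.** -/
theorem Datum.inU (hS : SModule p S X) (D : Datum S c a β) (hc : IsTriv S c) : InU S (dExt a) := by
  classical
  have hp := hS.tors
  have hp0 : p ≠ 0 := (Fact.out : p.Prime).ne_zero
  obtain ⟨K, -, hK, hX⟩ := hS.level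
  obtain ⟨LT, hLT, k, hk, hk0, hck⟩ := hc
  obtain ⟨L1, ha, hβ⟩ := D.lvl
  set L := (L1.sup LT).sup K with hL
  have hL1 : L.grp ≤ L1.grp := ((L1.sup LT).sup_left K).trans (L1.sup_left LT)
  have hLT' : L.grp ≤ LT.grp := ((L1.sup LT).sup_left K).trans (L1.sup_right LT)
  have hXL : ∀ s ∈ L.grp, ∀ x : X, s • x = x := fun s hs => hX s ((L1.sup LT).sup_right K hs)
  have hl := L.lvl (H := (⊤ : Subgroup GQ)) le_top
  -- `β - k` is a coboundary
  have hf : IsZ1 (⊤ : Subgroup GQ) L.grp (β - k) :=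
    ⟨(hβ.mono le_rfl hL1).sub (hk.mono le_rfl hLT'), fun g _ h _ => by
      have e := (dd1_sub β k g h).trans (by rw [← D.coc, ← hck, sub_self])
      rw [dd1] at e
      rw [eq_comm, ← sub_eq_zero, ← e]
      abel⟩
  obtain ⟨w0, hw0⟩ := isB1_fn hl hXL hf fun x =>
    isB1_qmul L (fun s hs => MulAction.mem_stabilizer_iff.2 (hXL s hs x)) (isZ1_apply hf x fun s hs => hXL s hs x)
  -- the invariant cocycle
  have ha0g : ∀ g : GQ, g • (a - Fn.map principal (del w0)) = a - Fn.map principal (del w0) := fun g => by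
    refine sub_eq_zero.1 ?_
    have e : del (β g) - (g • del w0 - del w0) = (0 : Fn (X × X) QMul) := by
      rw [smul_del, ← map_sub, ← map_sub, ← show β g - k g = g • w0 - w0 from hw0 g trivial,
        sub_sub_cancel, hk0]
    rw [smul_sub, ← Fn.map_smul (fun g a => principal_smul g a),
      show g • a - Fn.map principal (g • del w0) - (a - Fn.map principal (del w0))
        = (g • a - a) - (Fn.map principal (g • del w0) - Fn.map principal (del w0)) by abel,
      D.eqv g, ← map_sub, ← map_sub, e, map_zero]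
  have hrel : ExtRel (⊤ : Subgroup GQ) (dExt (a - Fn.map principal (del w0))) (dExt a) :=
    ExtRel.of_eq (by
      show clFn (a - Fn.map principal (del w0)) = clFn a
      rw [map_sub, clFn_principal, sub_zero]) fun g _ => rfl
  refine (inU_of_invariant hp hX (sub_mem D.sym (by rw [← del_map]; exact del_mem_symCoc _)) ha0g
    fun q hq => ?_).congr hrel
  obtain ⟨L2, hL2, w, h1, h2, h3⟩ := D.loc q hq
  have hL3q : ((L2.sup LT).sup K).UnrAt q := (hL2.sup (hLT q hq)).sup (hK q hq)
  have hX3 : ∀ s ∈ ((L2.sup LT).sup K).grp, ∀ x : X, s • x = x := fun s hs => hX s ((L2.sup LT).sup_right K hs)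
  have hdV : ∀ g, dd0 (w - Fn.map (qc q) w0) g = Fn.map (qc q) (k g) - (Fn.map (qc q) (β g) - dd0 w g) := fun g => by
    have e : Fn.map (qc q) (β g - k g) = dd0 (Fn.map (qc q) w0) g := by
      rw [show β g - k g = dd0 w0 g from hw0 g trivial, dd0, map_sub, Fn.map_smul (qc_smul q)]
      rfl
    rw [map_sub] at e
    rw [show Fn.map (qc q) (k g) - (Fn.map (qc q) (β g) - dd0 w g)
      = dd0 w g - (Fn.map (qc q) (β g) - Fn.map (qc q) (k g)) by abel, e]
    simp only [dd0, smul_sub]
    abel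
  obtain ⟨Q, hQg, hQ⟩ := exists_invariant_qpart hL3q hX3 (V := w - Fn.map (qc q) w0) (fun g hg s hs => by
      rw [hdV, hdV, show k (g * s) = k g from hk g hg s (L2.sup_right LT ((L2.sup LT).sup_left K hs))]
      exact congrArg _ (h1 g hg s (L2.sup_left LT ((L2.sup LT).sup_left K hs))))
    fun g x => by
      rw [hdV]
      exact sub_mem (semiUnit_qc_of_del hp0 hp (hk0 g) q x) (h2 g x)
  refine ⟨Q, hQg, fun z => ?_⟩
  obtain ⟨m, n⟩ := z
  have e : comp q ((a - Fn.map principal (del w0)) (m, n)) - del Q (m, n)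
      = (comp q (a (m, n)) - del w (m, n)) + del (w - Fn.map (qc q) w0 - Q) (m, n) := by
    simp only [Fn.sub_apply, Fn.map_apply, del_apply, map_sub, map_add, qc_apply]
    abel
  rw [e]
  exact add_mem (h3 (m, n)) (sub_mem (add_mem (hQ m) (hQ n)) (hQ _))

end FLTAgent.Global
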