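import Fermat.Agent.Global.Bridge.Datum
import Fermat.Agent.Global.Duality.Kernel

/-!
A class whose datum is orthogonal to `Ш¹_S` is trivial.
-/

set_option autoImplicit false
set_option linter.unusedSectionVars false
set_option linter.unusedVariables false
set_option synthInstance.maxHeartbeats 100000

noncomputable section

namespace FLTAgent.Global

lemma fn_smul_zero {Y A : Type*} [AddCommGroup A] [MulAction GQ Y] [DistribMulAction GQ A] (g : GQ) :
    g • (0 : Fn Y A) = 0 := smul_zero (A := Fn Y A) g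

lemma exists_eq_nsmul_qmul {n : ℕ} (hn : n ≠ 0) (c : QMul) : ∃ r : QMul, c = n • r := by
  obtain ⟨z, hz⟩ := IsAlgClosed.exists_pow_nat_eq (qval c) (Nat.pos_of_ne_zero hn)
  have hz0 : z ≠ 0 := fun h => qval_ne_zero c (by rw [← hz, h, zero_pow hn])
  exact ⟨toQMul z hz0, qmul_ext (by rw [qval_nsmul', qval_toQMul, hz])⟩

lemma eq_zero_of_sval_qc_one {q : Nat.Primes} {a : QMul} (h : sval (qc q a) 1 = 1) : a = 0 := by
  refine qmul_ext ((emb q).injective ?_)
  rw [qval_zero, map_one, ← h, sval_qc, AlgEquiv.one_apply]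
  rfl

variable {p : ℕ} [Fact p.Prime] {S : Finset Nat.Primes} {X : Type*} [AddCommGroup X] [DistribMulAction GQ X]
  {c : GQ → GQ → Fn X QMul} {a : Fn (X × X) Idele} {β : GQ → Fn X QMul}

lemma smul_fn_of_del {K : Level} (hμ : FixesMu p K.grp) (hX : ∀ s ∈ K.grp, ∀ x : X, s • x = x)
    (hp : ∀ x : X, p • x = 0) {w : Fn X QMul} (hw : del w = 0) {s : GQ} (hs : s ∈ K.grp) :
    s • w = w := Fn.ext fun x => by
  rw [Fn.smul_apply, hX _ (K.grp.inv_mem hs), smul_of_nsmul_eq_zero hμ (nsmul_eq_zero_of_del hp hw x) hs]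

lemma IsTriv.nsmul (h : IsTriv S c) (n : ℕ) : IsTriv S (n • c) := by
  obtain ⟨L, hL, k, hk, hk0, hck⟩ := h
  refine ⟨L, hL, n • k, fun g hg s hs => congrArg (n • ·) (hk g hg s hs), fun g => ?_, fun g h => ?_⟩
  · rw [Pi.smul_apply, map_nsmul, hk0, nsmul_zero]
  · simp only [Pi.smul_apply, hck g h, dd1, smul_comm g n, nsmul_add, nsmul_sub]

lemma IsTriv.congr {c' : GQ → GQ → Fn X QMul} (h : IsTriv S c) (e : ∀ g k, c' g k = c g k) : IsTriv S c' := by
  obtain ⟨L, hL, k, hk, hk0, hck⟩ := h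
  exact ⟨L, hL, k, hk, hk0, fun g h => (e g h).trans (hck g h)⟩

/-- Removing a multiple prime to `p`. -/
lemma IsTriv.of_nsmul (hp : ∀ x : X, p • x = 0) (hc : ∀ g k, del (c g k) = 0) {n : ℕ} (hn : ¬ p ∣ n)
    (h : IsTriv S (n • c)) : IsTriv S c := by
  obtain ⟨m, hm⟩ : ∃ m : ℕ, n * m % p = 1 := by
    obtain ⟨m, -, hm⟩ := Nat.exists_mul_mod_eq_one_of_coprime
      (((Fact.out : p.Prime).coprime_iff_not_dvd.2 hn).symm) (Fact.out : p.Prime).one_lt
    exact ⟨m, hm⟩
  refine (h.nsmul m).congr fun g k => Fn.ext fun x => ?_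
  simp only [Pi.smul_apply, Fn.nsmul_apply, ← mul_nsmul]
  conv_rhs => rw [← Nat.mod_add_div (n * m) p, hm, add_nsmul, one_nsmul, mul_nsmul,
    nsmul_eq_zero_of_del hp (hc g k), nsmul_zero, add_zero]

/-- The local step: a root of unity that is a unit coboundary up to an unramified cochain is
constant on inertia. -/
theorem apply_inertia_eq {q : Nat.Primes} (hqp : (q : ℕ).Coprime p) {V : Semi q} (hV : V ∈ semiUnit q)
    {s : GQ} (hs : s ∈ inertiaAt q) {ζ : QMul} (hζ : p • ζ = 0) (h : qc q ζ = s • V - V) : ζ = 0 := by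
  refine eq_zero_of_sval_qc_one (q := q) ?_
  have htor : sval (s • V) 1 ^ p = sval V 1 ^ p := by
    rw [← sval_nsmul, ← sval_nsmul, show s • V = qc q ζ + V by rw [h, sub_add_cancel], nsmul_add,
      ← map_nsmul, hζ, map_zero, zero_add]
  have e := sval_smul_eq_of_inertia hqp hs (x := 0) (smul_zero s) (by rw [hV 1, sval_zero, norm_one]) htor
  rw [h, sub_eq_add_neg, sval_add, sval_neg, e, mul_inv_cancel₀ (sval_ne_zero _ _)]

variable [Finite X]

/-- A datum that is a unit extension belongs to a trivial class. -/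
theorem Datum.isTriv_of_inU (hpS : (⟨p, Fact.out⟩ : Nat.Primes) ∈ S) (hS : SModule p S X)
    (hc : IsSha2 S c) (D : Datum S c a β) (h : InU S (dExt a)) : IsTriv S c := by
  classical
  have hp := hS.tors
  have hp0 : p ≠ 0 := (Fact.out : p.Prime).ne_zero
  obtain ⟨K, hμ, hK, hX⟩ := hS.level
  obtain ⟨Lc, hLc, hcz⟩ := hc.unr
  obtain ⟨Z, ⟨A, B⟩, hU, hcomp, w0, hw1, hw2⟩ := h
  obtain ⟨W, hW⟩ : ∃ W : Fn X Idele, clFn W = w0 :=
    ⟨fun x => (toCl_surjective (w0 x)).choose, Fn.ext fun x => (toCl_surjective (w0 x)).choose_spec⟩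
  replace hw1 : clFn A - clFn a = del w0 := hw1
  replace hw2 : ∀ g, clFn (B g) = dd0 w0 g := fun g => (sub_zero _).symm.trans (hw2 g trivial)
  -- the principal parts
  obtain ⟨d, hd⟩ : ∃ d : Fn (X × X) QMul, Fn.map principal d = A - a - del W := by
    have e : ∀ z, ∃ b, principal b = (A - a - del W) z := fun z => toCl_eq_zero_iff.1 (by
      show (clFn (A - a - del W)) z = 0
      rw [map_sub, map_sub, hw1, ← del_map, hW, sub_self, Fn.zero_apply])
    exact ⟨fun z => (e z).choose, Fn.ext fun z => (e z).choose_spec⟩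
  obtain ⟨r, hr⟩ : ∃ r : GQ → Fn X QMul, ∀ g, Fn.map principal (r g) = B g - dd0 W g := by
    have e : ∀ g x, ∃ b, principal b = (B g - dd0 W g) x := fun g x => toCl_eq_zero_iff.1 (by
      show (clFn (B g - dd0 W g)) x = 0
      rw [map_sub, hw2, dd0, dd0, map_sub, clFn_smul, hW, sub_self, Fn.zero_apply])
    exact ⟨fun g x => (e g x).choose, fun g => Fn.ext fun x => (e g x).choose_spec⟩
  have hinj : ∀ {Y : Type _} {u v : Fn Y QMul}, Fn.map principal u = Fn.map principal v → u = v :=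
    fun {Y u v} e => Fn.ext fun y => principal_injective (congrArg (fun F : Fn Y Idele => F y) e)
  have hds : d ∈ symCoc := by
    have hs : A - a - del W ∈ symCoc := sub_mem (sub_mem hU.sym D.sym) (del_mem_symCoc W)
    rw [← hd] at hs
    exact ⟨fun m n => principal_injective (hs.1 m n), fun m n k => principal_injective (by
      rw [map_add, map_add]; exact hs.2 m n k)⟩
  obtain ⟨φ, -, hφ⟩ := exists_eq_del (p := p) hp (W := ⊤) (W' := ⊤)
    (fun u _ => by obtain ⟨v, hv⟩ := exists_eq_nsmul_qmul hp0 u; exact ⟨v, trivial, hv⟩) hds fun z => trivial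
  -- the primitive with values in roots of unity
  set k : GQ → Fn X QMul := fun g => β g + dd0 φ g - r g with hk
  have hk0 : ∀ g, del (k g) = 0 := fun g => by
    refine hinj ?_
    have e1 := congrArg (fun F => g • F - F) hd
    rw [hφ] at e1
    rw [← Fn.map_smul (fun g a => principal_smul g a), ← map_sub, smul_del, ← map_sub] at e1
    rw [hk, map_sub del, map_add del, map_sub, map_add, map_zero, ← D.eqv g,
      show dd0 φ g = g • φ - φ from rfl, e1, ← del_map, hr, map_sub del]
    have e2 : g • A - A = del (B g) := hU.eqv g trivial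
    rw [← e2, dd0, map_sub del, ← smul_del]
    simp only [smul_sub]
    abel
  have hkc : ∀ g h, c g h = dd1 k g h := fun g h => by
    have er : dd1 r g h = 0 := hinj (by
      simp only [dd1, map_add, map_sub, map_zero, Fn.map_smul (fun g a => principal_smul g a), hr,
        show B (g * h) = g • B h + B g from hU.coc.2 g trivial h trivial, dd0, smul_sub, mul_smul]
      abel)
    rw [D.coc, show k = β + dd0 φ - r from rfl, dd1_sub, dd1_add, dd1_dd0, er, add_zero, sub_zero]
  -- its level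
  obtain ⟨L1, ha, hβ⟩ := D.lvl
  obtain ⟨L2, hL2, hWf⟩ := exists_level_fix_fn exists_level_fix_idele (((L1.sup Z).sup Lc).sup K)
    (fun s hs x => hX s (((L1.sup Z).sup Lc).sup_right K hs) x) W
  obtain ⟨L3, hL3, hφf⟩ := exists_level_fix_fn exists_level_fix_qmul L2
    (fun s hs x => hX s (((L1.sup Z).sup Lc).sup_right K (hL2 hs)) x) φ
  have hL31 : L3.grp ≤ L1.grp := (hL3.trans hL2).trans
    ((((L1.sup Z).sup Lc).sup_left K).trans (((L1.sup Z).sup_left Lc).trans (L1.sup_left Z)))
  have hL3Z : L3.grp ≤ Z.grp := (hL3.trans hL2).trans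
    ((((L1.sup Z).sup Lc).sup_left K).trans (((L1.sup Z).sup_left Lc).trans (L1.sup_right Z)))
  have hkl : IsLvl1 (⊤ : Subgroup GQ) L3.grp k := fun g hg s hs => by
    have er : r (g * s) = r g := hinj (by
      rw [hr, hr, show B (g * s) = B g from hU.coc.1 g hg s (hL3Z hs), dd0, dd0, mul_smul,
        hWf s (hL3 hs)])
    simp only [hk, hβ g hg s (hL31 hs), dd0, mul_smul, hφf s hs, er]
  set L0 := Lc.sup K with hL0
  have hc1 : c 1 1 = k 1 := by rw [hkc, dd1, one_smul, mul_one, sub_self, zero_add]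
  have hright : ∀ s ∈ L0.grp, ∀ g, k (g * s) = g • (k s - k 1) + k g := fun s hs g => by
    have e := hkc g s
    rw [show c g s = c g 1 by simpa using hcz.1 g trivial 1 trivial 1 Lc.grp.one_mem s (Lc.sup_left K hs),
      hcz.right_one trivial, hc1, dd1] at e
    rw [smul_sub, e]
    abel
  have hfixk : ∀ s ∈ L0.grp, ∀ g, s • k g = k g := fun s hs g =>
    smul_fn_of_del hμ hX hp (hk0 g) (Lc.sup_right K hs)
  let N : Subgroup GQ :=
    { carrier := {s | s ∈ L0.grp ∧ k s = k 1}
      one_mem' := ⟨L0.grp.one_mem, rfl⟩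
      mul_mem' := fun {s t} hs ht => ⟨mul_mem hs.1 ht.1, by
        rw [hright t ht.1, ht.2, sub_self, fn_smul_zero, zero_add, hs.2]⟩
      inv_mem' := fun {s} hs => ⟨inv_mem hs.1, by
        have e := hright s hs.1 s⁻¹
        rw [inv_mul_cancel, hs.2, sub_self, fn_smul_zero, zero_add] at e
        exact e.symm⟩ }
  have hNn : N.Normal := ⟨fun s hs g => by
    have hs' : g * s * g⁻¹ ∈ L0.grp := L0.grp_normal.conj_mem s hs.1 g
    refine ⟨hs', ?_⟩
    have e1 := hkc (g * s * g⁻¹) g
    rw [show c (g * s * g⁻¹) g = c 1 1 by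
      rw [← hcz.left_one (g := g) trivial]
      simpa using hcz.1 1 trivial g trivial _ (Lc.sup_left K hs') 1 Lc.grp.one_mem,
      hc1, dd1, hfixk _ hs', inv_mul_cancel_right, hright s hs.1 g, hs.2, sub_self,
      fn_smul_zero, zero_add, sub_self, zero_add] at e1
    exact e1.symm⟩
  have hMN : (L3.sup L0).grp ≤ N := fun s hs => ⟨L3.sup_right L0 hs, by
    simpa using hkl 1 trivial s (L3.sup_left L0 hs)⟩
  obtain ⟨L', hL'⟩ := exists_level_grp_eq (L3.sup L0) hMN hNn
  refine ⟨L', fun q hq => unrAt_of_inertiaAt fun s hs => ?_, k, fun g hg s hs => ?_, hk0, hkc⟩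
  · rw [hL']
    have hs0 : s ∈ L0.grp := inertiaAt_le_of_unrAt ((hLc q hq).sup (hK q hq)) hs
    refine ⟨hs0, Fn.ext fun x => sub_eq_zero.1 ?_⟩
    obtain ⟨L2', hL2', w, h1, h2, h3⟩ := D.loc q hq
    have hB0 : ∀ g, Fn.map (comp q) (B g) = 0 := fun g => Fn.ext fun y => (hcomp q hq).2 g y
    set V : Fn X (Semi q) := w + Fn.map (qc q) φ + Fn.map (comp q) W with hV
    have hVu : ∀ y, V y ∈ semiUnit q := fun y => by
      refine semiUnit_of_del hp0 hp (fun z => ?_) y
      have e : del V z = -(comp q (a z) - del w z) + comp q (A z) := by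
        have ed : comp q (principal (d z)) = comp q (A z) - comp q (a z) - comp q (del W z) := by
          rw [← Fn.map_apply principal, hd, Fn.sub_apply, Fn.sub_apply, map_sub, map_sub]
        rw [hφ, ← qc_apply] at ed
        obtain ⟨m, n⟩ := z
        simp only [hV, map_add, Fn.add_apply, del_map, Fn.map_apply, ed]
        abel
      rw [e]
      exact add_mem (neg_mem (h3 z)) ((hcomp q hq).1 z)
    have hqk : ∀ g, Fn.map (qc q) (k g) = (Fn.map (qc q) (β g) - dd0 w g) + dd0 V g := fun g => by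
      have e : Fn.map (qc q) (r g) = -dd0 (Fn.map (comp q) W) g := by
        rw [dd0, ← Fn.map_smul (comp_smul q), ← map_sub, ← map_neg,
          show qc q = (comp q).comp principal from rfl]
        show Fn.map (comp q) (Fn.map principal (r g)) = _
        rw [hr, map_sub, hB0, zero_sub, dd0, map_neg]
      simp only [hk, map_sub, map_add, e, dd0, Fn.map_smul (qc_smul q), hV, smul_add]
      abel
    have e : Fn.map (qc q) (k s) - Fn.map (qc q) (k 1) = s • V - V := by
      have e1 := h1 1 trivial s (inertiaAt_le_of_unrAt hL2' hs)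
      simp only [one_mul] at e1
      rw [hqk, hqk, e1]
      simp only [dd0, one_smul, sub_self]
      abel
    refine apply_inertia_eq ((Nat.coprime_primes q.2 (Fact.out : p.Prime)).2 fun he => hq ?_) (hVu x) hs
      (by rw [nsmul_sub, nsmul_eq_zero_of_del hp (hk0 s), nsmul_eq_zero_of_del hp (hk0 1), sub_zero]) ?_
    · rwa [show q = ⟨p, Fact.out⟩ from Subtype.ext he]
    · rw [map_sub, ← Fn.map_apply (qc q), ← Fn.map_apply (qc q), ← Fn.sub_apply, e, Fn.sub_apply,
        Fn.smul_apply, hX _ (K.grp.inv_mem (Lc.sup_right K hs0))]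
  · rw [hL'] at hs
    rw [hright s hs.1, hs.2, sub_self, fn_smul_zero, zero_add]

/-- **A class whose datum is orthogonal to `Ш¹_S` is trivial.** -/
theorem Datum.isTriv_of_perp (hp2 : p ≠ 2) (hpS : (⟨p, Fact.out⟩ : Nat.Primes) ∈ S) (hS : SModule p S X)
    (hc : IsSha2 S c) (D : Datum S c a β) (hperp : ∀ f : GQ → X, IsSha S f → clPair p (dExt a) f = 0) :
    IsTriv S c := by
  obtain ⟨n, hn, hU⟩ := exists_nsmul_inU hp2 hpS hS (Le := Level.bot) (D.isExt Level.bot.grp) hperp
  rw [← dExt_nsmul] at hU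
  refine IsTriv.of_nsmul hS.tors hc.addv hn ((D.nsmul n).isTriv_of_inU hpS hS ⟨?_, fun g k => ?_, fun q hq => ?_⟩ hU)
  · obtain ⟨L, hL, hz⟩ := hc.unr
    exact ⟨L, hL, fun g hg h hh s hs t ht => congrArg (n • ·) (hz.1 g hg h hh s hs t ht), fun g hg h hh j hj => by
      have := congrArg (n • ·) (hz.2 g hg h hh j hj)
      simpa only [Pi.smul_apply, nsmul_sub, nsmul_add, nsmul_zero, smul_comm g n] using this⟩
  · rw [Pi.smul_apply, Pi.smul_apply, map_nsmul, hc.addv, nsmul_zero]
  · obtain ⟨L, k, hk, hk0, hck⟩ := hc.loc q hq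
    refine ⟨L, n • k, fun g hg s hs => congrArg (n • ·) (hk g hg s hs), fun g hg => ?_, fun g hg h hh => ?_⟩
    · rw [Pi.smul_apply, map_nsmul, hk0 g hg, nsmul_zero]
    · simp only [Pi.smul_apply, hck g hg h hh, dd1, smul_comm g n, nsmul_add, nsmul_sub]

end FLTAgent.Global
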