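import Fermat.Agent.Global.Bridge.Local
import Fermat.Agent.Global.Bridge.Perp
import Fermat.Agent.Global.CFT.Main

/-!
Every class in `Ш²_S` has a datum, up to a multiple prime to `p`.
-/

set_option autoImplicit false
set_option linter.unusedSectionVars false
set_option linter.unusedVariables false
set_option synthInstance.maxHeartbeats 100000

noncomputable section

namespace FLTAgent.Global

variable {p : ℕ} [Fact p.Prime] {S : Finset Nat.Primes} {X : Type*} [AddCommGroup X] [DistribMulAction GQ X]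
  {c : GQ → GQ → Fn X QMul}

/-- A level below finitely many given ones. -/
lemma exists_level_le (L₀ : Level) {ι : Type*} [Finite ι] (M : ι → Level) :
    ∃ L : Level, L.grp ≤ L₀.grp ∧ ∀ i, L.grp ≤ (M i).grp := by
  obtain ⟨L, h1, h2⟩ := exists_forall_fix (Γ := GQ) Level.sup Level.grp Level.sup_grp_le L₀
    (fun i s => s ∈ (M i).grp) fun i => ⟨M i, fun s hs => hs⟩
  exact ⟨L, h1, h2⟩

lemma semiUnit_of_torsion (hp : ∀ x : X, p • x = 0) {q : Nat.Primes} {w : Fn X (Semi q)}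
    (h : del w = 0) (x : X) : w x ∈ semiUnit q := by
  refine semiUnit_of_nsmul (Fact.out : p.Prime).ne_zero ?_
  rw [nsmul_eq_zero_of_del hp h]
  exact zero_mem _

lemma isZ2_qc {L : Level} (hc : IsZ2 (⊤ : Subgroup GQ) L.grp c) (q : Nat.Primes) :
    IsZ2 (⊤ : Subgroup GQ) L.grp (fun g k => Fn.map (qc q) (c g k)) :=
  isZ2_comp (A := Fn X QMul) (B := Fn X (Semi q)) (φ := Fn.map (qc q))
    (fun g w => Fn.map_smul (A := QMul) (B := Semi q) (qc_smul q) g w) hc

lemma IsLvl1.map {Γ Y Z : Type*} [Group Γ] {H N : Subgroup Γ} {f : Γ → Y} (hf : IsLvl1 H N f) (φ : Y → Z) :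
    IsLvl1 H N (fun g => φ (f g)) := fun g hg s hs => congrArg φ (hf g hg s hs)

/-- At a prime of `S` there is an additive local primitive. -/
theorem exists_primitive_mem (hS : SModule p S X) (hc : IsSha2 S c) {q : Nat.Primes} (hq : q ∈ S) :
    ∃ (M : Level) (b : GQ → Fn X (Semi q)), IsLvl1 (⊤ : Subgroup GQ) M.grp b ∧
      (∀ g x, b g x ∈ fixSub (A := Semi q) M.grp) ∧ (∀ g, del (b g) = 0) ∧
      ∀ g k, Fn.map (qc q) (c g k) = dd1 b g k := by
  obtain ⟨K, hμ, hK, hX⟩ := hS.level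
  obtain ⟨Lc, -, hcz⟩ := hc.unr
  obtain ⟨Lk, k, hk, hk0, hck⟩ := hc.loc q hq
  set M := (Lc.sup K).sup Lk with hM
  have hMc : M.grp ≤ Lc.grp := ((Lc.sup K).sup_left Lk).trans (Lc.sup_left K)
  have hMK : M.grp ≤ K.grp := ((Lc.sup K).sup_left Lk).trans (Lc.sup_right K)
  obtain ⟨k', hk', hkd, hck'⟩ := exists_dec_extension (q := q)
    (hk.mono le_rfl ((Lc.sup K).sup_right Lk))
    (fun d hd t ht => smul_fn_of_del hμ hX hS.tors (hk0 d hd) (hMK ht))
    (fun g hg h hh s hs t ht => hcz.1 g hg h hh s (hMc hs) t (hMc ht)) hck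
  have hz := isZ2_qc (hcz.mono_lvl hMc) q
  obtain ⟨b, hb, hba, hbz⟩ := exists_additive_of_dec hz
    (fun g h => by rw [del_map, hc.addv, map_zero])
    (b := fun r => Fn.map (atPlace M q 1) (Fn.map (qc q) (k' r)))
    (hk'.map fun w => Fn.map (atPlace M q 1) (Fn.map (qc q) w))
    (fun r hr => by
      obtain ⟨d, hd, e⟩ := hkd r hr
      rw [del_map, del_map, e, hk0 d hd, map_zero, map_zero])
    fun r hr s hs => by
      rw [hck' r hr s hs]
      simp only [dd1]
      rw [← atPlace_map_smul hr, map_add, map_sub, map_add, map_sub, Fn.map_smul (qc_smul q)]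
  refine ⟨M, b, hb, fun g x => ?_, hba, hbz⟩
  exact (fn_fixed_iff (fun s hs => hX s (hMK hs)) (fun s hs => hX s (hMK hs)) (b g)).1
    (fun s hs => hz.primitive_smul_eq (M.lvl le_top) hb (fun g _ h _ => hbz g h) trivial hs) x

variable [Finite X]

/-- Outside `S` there are a unit primitive and an additive one, differing by a unit coboundary. -/
theorem exists_primitive_nmem (hp2 : p ≠ 2) (hp : ∀ x : X, p • x = 0) {L : Level} {q : Nat.Primes}
    (hq : L.UnrAt q) (hX : ∀ s ∈ L.grp, ∀ x : X, s • x = x) (hcz : IsZ2 (⊤ : Subgroup GQ) L.grp c)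
    (hca : ∀ g k, del (c g k) = 0) :
    ∃ b : GQ → Fn X (Semi q), IsLvl1 (⊤ : Subgroup GQ) L.grp b ∧
      (∀ g x, b g x ∈ semiUnit q) ∧ (∀ g x, b g x ∈ fixSub (A := Semi q) L.grp) ∧
      (∀ g k, Fn.map (qc q) (c g k) = dd1 b g k) ∧
      ∃ (M : Level) (b' : GQ → Fn X (Semi q)) (w : Fn X (Semi q)), M.UnrAt q ∧
        IsLvl1 (⊤ : Subgroup GQ) M.grp b' ∧ (∀ g, del (b' g) = 0) ∧ (∀ x, w x ∈ semiUnit q) ∧
        (∀ g : GQ, b g = b' g + dd0 w g) ∧ ∀ s ∈ L.grp, s • del w = del w := by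
  classical
  have hl := L.lvl (H := (⊤ : Subgroup GQ)) le_top
  have hz := isZ2_qc hcz q
  have hza : ∀ g k, del (Fn.map (qc q) (c g k)) = 0 := fun g k => by rw [del_map, hca, map_zero]
  have hst : ∀ x : X, L.grp ≤ MulAction.stabilizer GQ x := fun x s hs =>
    MulAction.mem_stabilizer_iff.2 (hX s hs x)
  obtain ⟨b, hb, hbu, hbc⟩ := exists_fn_primitive hl hX (semiUnit q)
    (fun g a ha => smul_mem_semiUnit q ha g) hz (fun g k x => semiUnit_of_torsion hp (hza g k) x)
    fun x => isB2_semiUnit L q hq (hst x) (isZ2_apply hz x) fun g _ k _ => semiUnit_of_torsion hp (hza g k) x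
  obtain ⟨M, b', hML, hM, hb', hba', hbc'⟩ := exists_additive_primitive hp2 hp hq hz hza
  have hXM : ∀ s ∈ M.grp, ∀ x : X, s • x = x := fun s hs => hX s (hML hs)
  have hlM := M.lvl (H := (⊤ : Subgroup GQ)) le_top
  have hf : IsZ1 (⊤ : Subgroup GQ) M.grp (b - b') :=
    ⟨(hb.mono le_rfl hML).sub hb', fun g _ k _ => by
      have e := (dd1_sub b b' g k).trans (by rw [← hbc, ← hbc', sub_self])
      rw [dd1] at e
      rw [eq_comm, ← sub_eq_zero, ← e]
      abel⟩
  obtain ⟨w0, hw0⟩ := isB1_fn hlM hXM hf fun x =>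
    isB1_semi M q (fun s hs => MulAction.mem_stabilizer_iff.2 (hXM s hs x))
      (isZ1_apply hf x fun s hs => hXM s hs x)
  obtain ⟨Q, hQg, hQ⟩ := exists_invariant_qpart hM hXM (V := w0)
    (fun g hg s hs => by
      rw [← hw0 (g * s) trivial, ← hw0 g trivial]
      exact hf.1 g hg s hs)
    fun g x => by
      rw [← hw0 g trivial]
      exact sub_mem (hbu g x) (semiUnit_of_torsion hp (hba' g) x)
  have hbw : ∀ g : GQ, b g = b' g + dd0 (w0 - Q) g := fun g => by
    have e : b g - b' g = g • w0 - w0 := hw0 g trivial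
    rw [dd0, smul_sub, hQg, sub_sub_sub_cancel_right, ← e, add_sub_cancel]
  refine ⟨b, hb, hbu, fun g x => ?_, hbc, M, b', w0 - Q, hM, hb', hba', hQ, hbw, fun s hs => ?_⟩
  · exact (fn_fixed_iff hX hX (b g)).1
      (fun s hs => hz.primitive_smul_eq hl hb (fun g _ k _ => hbc g k) trivial hs) x
  · have h1 : b 1 = Fn.map (qc q) (c 1 1) := by
      rw [hbc, dd1, one_smul, mul_one, sub_self, zero_add]
    have h2 : b s = b 1 := by simpa using hb 1 trivial s hs
    rw [← sub_eq_zero, smul_del, ← map_sub, show s • (w0 - Q) - (w0 - Q) = dd0 (w0 - Q) s from rfl,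
      show dd0 (w0 - Q) s = b s - b' s by rw [hbw s, add_sub_cancel_left],
      map_sub, hba', sub_zero, h2, h1, hza]

set_option maxHeartbeats 800000 in
/-- **Every class in `Ш²_S` has a datum, up to a multiple prime to `p`.** -/
theorem exists_datum (hp2 : p ≠ 2) (hS : SModule p S X) (hc : IsSha2 S c) :
    ∃ n : ℕ, ¬ p ∣ n ∧ ∃ (a : Fn (X × X) Idele) (β : GQ → Fn X QMul), Datum S (n • c) a β := by
  classical
  have hp := hS.tors
  obtain ⟨K, hμ, hK, hX⟩ := hS.level
  obtain ⟨Lc, hLc, hcz⟩ := hc.unr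
  set L1 := Lc.sup K with hL1
  have hX1 : ∀ s ∈ L1.grp, ∀ x : X, s • x = x := fun s hs => hX s (Lc.sup_right K hs)
  have hcz1 : IsZ2 (⊤ : Subgroup GQ) L1.grp c := hcz.mono_lvl (Lc.sup_left K)
  choose MS bS hbS hbSfix hbSa hbSc using fun q : S => exists_primitive_mem hS hc q.2
  obtain ⟨L, hL1', hLM⟩ := exists_level_le L1 MS
  have hXL : ∀ s ∈ L.grp, ∀ x : X, s • x = x := fun s hs => hX1 s (hL1' hs)
  have hX2 : ∀ s ∈ L.grp, ∀ z : X × X, s • z = z := fun s hs z => Prod.ext (hXL s hs _) (hXL s hs _)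
  -- all the places
  have hloc : ∀ q : Nat.Primes, ∃ (b : GQ → Fn X (Semi q)) (a : Fn (X × X) (Semi q)),
      IsLvl1 (⊤ : Subgroup GQ) L.grp b ∧ (∀ g x, b g x ∈ fixSub (A := Semi q) L.grp) ∧
      (∀ g k, Fn.map (qc q) (c g k) = dd1 b g k) ∧ a ∈ symCoc ∧ (∀ z, a z ∈ semiUnit q) ∧
      (∀ z, a z ∈ fixSub (A := Semi q) L.grp) ∧ (∀ g, g • a - a = del (b g)) ∧
      (q ∉ S → ∀ g x, b g x ∈ semiUnit q) ∧
      (q ∉ S → ∃ (M : Level) (b' : GQ → Fn X (Semi q)) (w : Fn X (Semi q)), M.UnrAt q ∧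
        IsLvl1 (⊤ : Subgroup GQ) M.grp b' ∧ (∀ g, del (b' g) = 0) ∧ a = del w ∧
        ∀ g : GQ, b g = b' g + dd0 w g) := by
    intro q
    by_cases hq : q ∈ S
    · refine ⟨bS ⟨q, hq⟩, 0, (hbS ⟨q, hq⟩).mono le_rfl (hLM _), fun g x s hs => hbSfix ⟨q, hq⟩ g x s (hLM _ hs),
        hbSc ⟨q, hq⟩, zero_mem _, fun z => zero_mem (semiUnit q), fun z => zero_mem (fixSub (A := Semi q) L.grp),
        fun g => ?_, fun h => absurd hq h, fun h => absurd hq h⟩
      rw [hbSa ⟨q, hq⟩ g, sub_zero]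
      exact fn_smul_zero g
    · obtain ⟨b, hb, hbu, hbf, hbc, M, b', w, hM, hb', hba', hwu, hbw, hwL⟩ :=
        exists_primitive_nmem hp2 hp ((hLc q hq).sup (hK q hq)) hX1 hcz1 hc.addv
      refine ⟨b, del w, hb.mono le_rfl hL1', fun g x s hs => hbf g x s (hL1' hs), hbc, del_mem_symCoc w,
        fun z => ?_, (fn_fixed_prod hXL (del w)).1 (fun s hs => hwL s (hL1' hs)), fun g => ?_,
        fun _ => hbu, fun _ => ⟨M, b', w, hM, hb', hba', rfl, hbw⟩⟩
      · obtain ⟨m, n⟩ := z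
        exact sub_mem (add_mem (hwu m) (hwu n)) (hwu _)
      · rw [smul_del, ← map_sub, show g • w - w = b g - b' g by rw [hbw g, dd0, add_sub_cancel_left],
          map_sub, hba', sub_zero]
  choose b a hb hbfix hbc has hau hafix hab hbu hbloc using hloc
  have hfinb : ∀ g x, {q | b q g x ∉ semiUnit q}.Finite := fun g x =>
    S.finite_toSet.subset fun q hq => by_contra fun h => hq (hbu q h g x)
  obtain ⟨B, hB⟩ : ∃ B : GQ → Fn X Idele, ∀ q g x, comp q (B g x) = b q g x :=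
    ⟨fun g x => mkIdele L (fun q => b q g x) (fun q => hbfix q g x) (hfinb g x), fun q g x => rfl⟩
  obtain ⟨A, hA⟩ : ∃ A : Fn (X × X) Idele, ∀ q z, comp q (A z) = a q z :=
    ⟨fun z => mkIdele L (fun q => a q z) (fun q => hafix q z)
      (S.finite_toSet.subset fun q hq => absurd (hau q z) hq), fun q z => rfl⟩
  have hBc : ∀ g k, dd1 B g k = Fn.map principal (c g k) := fun g k => Fn.ext fun x => idele_ext fun q => by
    rw [Fn.map_apply, ← qc_apply, ← Fn.map_apply (qc q), hbc q g k]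
    simp only [dd1, Fn.add_apply, Fn.sub_apply, Fn.smul_apply, map_add, map_sub, comp_smul, hB]
  have hAB : ∀ g, g • A - A = del (B g) := fun g => Fn.ext fun ⟨m, n⟩ => idele_ext fun q => by
    have e := congrArg (fun F : Fn (X × X) (Semi q) => F (m, n)) (hab q g)
    simp only [Fn.sub_apply, Fn.smul_apply, Prod.smul_mk, del_apply] at e
    simp only [Fn.sub_apply, Fn.smul_apply, Prod.smul_mk, del_apply, map_add, map_sub, comp_smul, hA, hB, e]
  have hAs : A ∈ symCoc := ⟨fun m n => idele_ext fun q => by rw [hA, hA, (has q).1],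
    fun m n k => idele_ext fun q => by simp only [map_add, hA]; exact (has q).2 m n k⟩
  have hBl : IsLvl1 (⊤ : Subgroup GQ) L.grp B := fun g hg s hs => Fn.ext fun x => idele_ext fun q => by
    rw [hB, hB, hb q g hg s hs]
  have hAf : ∀ s ∈ L.grp, s • A = A := (fn_fixed_prod hXL A).2 fun z s hs => idele_ext fun q => by
    rw [comp_smul, hA, hafix q z s hs]
  -- the classes of `B`
  have hz : IsZ1 (⊤ : Subgroup GQ) L.grp (fun g => clFn (B g)) :=
    ⟨hBl.map _, fun g _ k _ => by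
      have e := congrArg clFn (hBc g k)
      rw [dd1, map_add, map_sub, clFn_smul, clFn_principal] at e
      rw [eq_comm, ← sub_eq_zero, ← e]
      abel⟩
  have hl := L.lvl (H := (⊤ : Subgroup GQ)) le_top
  obtain ⟨n, hn, ω, hω⟩ := exists_nsmul_isB1_fn (Fact.out : p.Prime) hl hXL hz fun x =>
    exists_nsmul_isB1_cl hp2 L (L.lvl fun s hs => MulAction.mem_stabilizer_iff.2 (hXL s hs x)) le_rfl
      (hμ.mono (hL1'.trans (Lc.sup_right K))) (isZ1_apply hz x fun s hs => hXL s hs x)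
  obtain ⟨Ω, hΩ⟩ : ∃ Ω : Fn X Idele, clFn Ω = ω :=
    ⟨fun x => (toCl_surjective (ω x)).choose, Fn.ext fun x => (toCl_surjective (ω x)).choose_spec⟩
  obtain ⟨β, hβ⟩ : ∃ β : GQ → Fn X QMul, ∀ g, Fn.map principal (β g) = n • B g - dd0 Ω g := by
    have e : ∀ g x, ∃ u, principal u = (n • B g - dd0 Ω g) x := fun g x => toCl_eq_zero_iff.1 (by
      show (clFn (n • B g - dd0 Ω g)) x = 0
      have e : n • clFn (B g) = dd0 ω g := hω g trivial
      rw [map_sub, map_nsmul, e, dd0, dd0, map_sub, clFn_smul, hΩ, sub_self, Fn.zero_apply])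
    exact ⟨fun g x => (e g x).choose, fun g => Fn.ext fun x => (e g x).choose_spec⟩
  have hinj : ∀ {u v : Fn X QMul}, Fn.map principal u = Fn.map principal v → u = v :=
    fun {u v} e => Fn.ext fun y => principal_injective (congrArg (fun F : Fn X Idele => F y) e)
  refine ⟨n, hn, n • A - del Ω, β, ?_⟩
  obtain ⟨L', hL', hΩf⟩ := exists_level_fix_fn exists_level_fix_idele L hXL Ω
  refine ⟨sub_mem (nsmul_mem hAs n) (del_mem_symCoc Ω), ⟨L', fun s hs => ?_, fun g hg s hs => hinj ?_⟩,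
    fun g k => hinj ?_, fun g => ?_, fun q hq => ?_⟩
  · rw [smul_sub, smul_comm, hAf s (hL' hs), smul_del, hΩf s hs]
  · rw [hβ, hβ, hBl g hg s (hL' hs), dd0, dd0, mul_smul, hΩf s hs]
  · rw [Pi.smul_apply, Pi.smul_apply, map_nsmul, ← hBc]
    simp only [dd1, map_add, map_sub, Fn.map_smul (fun g a => principal_smul g a), hβ, dd0, smul_sub,
      mul_smul, nsmul_add, nsmul_sub, smul_comm g n]
    abel
  · rw [← del_map, hβ, map_sub del, map_nsmul, ← hAB, dd0, map_sub del, ← smul_del, nsmul_sub,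
      smul_sub, smul_comm g n]
    abel
  · obtain ⟨M, b', w, hM, hb', hba', haw, hbw⟩ := hbloc q hq
    set w' := n • w - Fn.map (comp q) Ω with hw'
    have hqβ : ∀ g, Fn.map (qc q) (β g) - dd0 w' g = n • b' g := fun g => by
      have e : Fn.map (qc q) (β g) = n • b q g - dd0 (Fn.map (comp q) Ω) g := by
        show Fn.map (comp q) (Fn.map principal (β g)) = _
        rw [hβ, map_sub, map_nsmul, show Fn.map (comp q) (B g) = b q g from Fn.ext fun x => hB q g x,
          dd0, dd0, map_sub, Fn.map_smul (comp_smul q)]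
      rw [e, hbw g, hw']
      simp only [dd0, smul_sub, nsmul_add, nsmul_sub, smul_comm g n]
      abel
    refine ⟨M, hM, w', fun g hg s hs => ?_, fun g x => ?_, fun z => ?_⟩
    · simp only [hqβ, hb' g hg s hs]
    · rw [hqβ, Fn.nsmul_apply]
      exact nsmul_mem (semiUnit_of_torsion hp (hba' g) x) n
    · have ed : comp q (del Ω z) = del (Fn.map (comp q) Ω) z := by
        rw [del_map]; rfl
      have e : comp q ((n • A - del Ω) z) - del w' z = 0 := by
        rw [hw', map_sub del, map_nsmul del, ← haw, Fn.sub_apply, Fn.sub_apply, Fn.nsmul_apply,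
          Fn.nsmul_apply, map_sub, map_nsmul, hA, ed]
        abel
      rw [e]
      exact zero_mem _

end FLTAgent.Global
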