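import Fermat.Agent.Global.Ext.CoresMore
import Fermat.Agent.Global.Ext.Form

/-!
Cohomology of modules of functions on a finite set, orbit by orbit.
-/

set_option autoImplicit false
set_option linter.unusedSectionVars false
set_option linter.unusedVariables false

noncomputable section

namespace FLTAgent.Global

variable {Γ : Type*} [Group Γ] {X : Type*} [MulAction Γ X] {A : Type*} [AddCommGroup A] [DistribMulAction Γ A]

open scoped Classical in
/-- Projection to the value at a point. -/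
def fnAt (x : X) : Fn X A →+ Fn X A where
  toFun w := fun y => if y = x then w x else 0
  map_zero' := Fn.ext fun y => by
    show (if y = x then (0 : A) else 0) = 0
    rw [ite_self]
  map_add' w w' := Fn.ext fun y => by
    show (if y = x then w x + w' x else 0) = (if y = x then w x else 0) + if y = x then w' x else 0
    split_ifs <;> simp

open scoped Classical in
lemma fnAt_apply (x : X) (w : Fn X A) (y : X) : fnAt x w y = if y = x then w x else 0 := rfl

lemma fnAt_smul {x : X} {r : Γ} (hr : r ∈ MulAction.stabilizer Γ x) (w : Fn X A) :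
    fnAt x (r • w) = r • fnAt x w := by
  classical
  have hx : r⁻¹ • x = x := inv_smul_eq_iff.2 (MulAction.mem_stabilizer_iff.1 hr).symm
  ext y
  rw [fnAt_apply, Fn.smul_apply, Fn.smul_apply, fnAt_apply, hx]
  by_cases hy : y = x
  · subst hy; rw [if_pos rfl, if_pos hx]
  · rw [if_neg hy, if_neg (fun h => hy ?_), smul_zero]
    rw [inv_smul_eq_iff] at h
    rw [h, MulAction.mem_stabilizer_iff.1 hr]

lemma smul_apply_of_fix {x : X} {r : Γ} (hr : r ∈ MulAction.stabilizer Γ x) (w : Fn X A) :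
    (r • w) x = r • w x := by
  rw [Fn.smul_apply, inv_smul_eq_iff.2 (MulAction.mem_stabilizer_iff.1 hr).symm]

lemma projAt_fnAt [DecidableEq X] (x : X) (t : Γ) (w : Fn X A) (y : X) :
    projAt (fnAt x) t w y = if t • x = y then w y else 0 := by
  classical
  rw [projAt, Fn.smul_apply, fnAt_apply, Fn.smul_apply, inv_inv]
  by_cases h : t • x = y
  · rw [if_pos h, if_pos (inv_smul_eq_iff.2 h.symm), smul_inv_smul, h]
  · rw [if_neg h, if_neg (fun h' => h (inv_smul_eq_iff.1 h').symm), smul_zero]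

/-- A constant function. -/
def constFn (a : A) : Fn X A := fun _ => a

lemma constFn_apply (a : A) (x : X) : (constFn a : Fn X A) x = a := rfl

variable [Finite X] {N : Subgroup Γ}

/-- A function is the sum of its restrictions to the orbits. -/
theorem sum_orbits_projAt (hN : Lvl (⊤ : Subgroup Γ) N) (hX : ∀ s ∈ N, ∀ x : X, s • x = x)
    [Fintype (MulAction.orbitRel.Quotient Γ X)] (w : Fn X A) :
    ∑ o : MulAction.orbitRel.Quotient Γ X, csum (⊤ : Subgroup Γ) (MulAction.stabilizer Γ o.out)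
      (fun t => projAt (fnAt o.out) t w) = w := by
  classical
  refine Fn.ext fun y => ?_
  show Fn.eval y (∑ o : MulAction.orbitRel.Quotient Γ X, csum (⊤ : Subgroup Γ) (MulAction.stabilizer Γ o.out)
      (fun t => projAt (fnAt o.out) t w)) = w y
  rw [map_sum]
  set o : MulAction.orbitRel.Quotient Γ X := Quotient.mk _ y with ho
  have hfin : ∀ x : X, Finite (↥(⊤ : Subgroup Γ) ⧸ (MulAction.stabilizer Γ x).subgroupOf ⊤) := fun x =>
    hN.fin_quot le_top fun s hs => MulAction.mem_stabilizer_iff.2 (hX s hs x)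
  rw [Finset.sum_eq_single o]
  · have := hfin o.out
    let _ := Fintype.ofFinite (↥(⊤ : Subgroup Γ) ⧸ (MulAction.stabilizer Γ o.out).subgroupOf ⊤)
    obtain ⟨t, ht⟩ : ∃ t : Γ, t • o.out = y := by
      have h : (MulAction.orbitRel Γ X) y o.out := Quotient.exact (Quotient.out_eq o).symm
      exact MulAction.mem_orbit_iff.1 h
    rw [csum_eq_sum, map_sum, Finset.sum_eq_single
      (QuotientGroup.mk (⟨t, trivial⟩ : (⊤ : Subgroup Γ)) : ↥(⊤ : Subgroup Γ) ⧸ (MulAction.stabilizer Γ o.out).subgroupOf ⊤)]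
    · show projAt (fnAt o.out) _ w y = w y
      rw [projAt_fnAt, if_pos]
      have h := (QuotientGroup.out_eq' (QuotientGroup.mk (⟨t, trivial⟩ : (⊤ : Subgroup Γ)) :
        ↥(⊤ : Subgroup Γ) ⧸ (MulAction.stabilizer Γ o.out).subgroupOf ⊤)).symm
      rw [QuotientGroup.eq, Subgroup.mem_subgroupOf, MulAction.mem_stabilizer_iff] at h
      simp only [rep, Subgroup.coe_mul, Subgroup.coe_inv, mul_smul, inv_smul_eq_iff] at h ⊢
      rw [h, ht]
    · intro c _ hc
      show projAt (fnAt o.out) _ w y = 0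
      rw [projAt_fnAt, if_neg]
      intro h
      refine hc ?_
      rw [← QuotientGroup.out_eq' c, QuotientGroup.eq, Subgroup.mem_subgroupOf, MulAction.mem_stabilizer_iff]
      simp only [rep, Subgroup.coe_mul, Subgroup.coe_inv, mul_smul] at h ⊢
      rw [ht, inv_smul_eq_iff, h]
    · simp
  · intro o' _ hne
    have := hfin o'.out
    let _ := Fintype.ofFinite (↥(⊤ : Subgroup Γ) ⧸ (MulAction.stabilizer Γ o'.out).subgroupOf ⊤)
    rw [csum_eq_sum, map_sum]
    refine Finset.sum_eq_zero fun c _ => ?_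
    show projAt (fnAt o'.out) _ w y = 0
    rw [projAt_fnAt, if_neg]
    intro h
    refine hne ?_
    rw [ho, ← Quotient.out_eq o']
    exact Quotient.sound (MulAction.mem_orbit_iff.2 ⟨_, (inv_smul_eq_iff.2 h.symm)⟩)
  · simp

/-- A 1-cocycle splits if its values at every point split on the stabiliser. -/
theorem isB1_fn (hN : Lvl (⊤ : Subgroup Γ) N) (hX : ∀ s ∈ N, ∀ x : X, s • x = x) {f : Γ → Fn X A}
    (hf : IsZ1 (⊤ : Subgroup Γ) N f)
    (h : ∀ x : X, IsB1 (MulAction.stabilizer Γ x) (fun g => f g x)) : IsB1 (⊤ : Subgroup Γ) f := by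
  classical
  have := Fintype.ofFinite (MulAction.orbitRel.Quotient Γ X)
  have hloc : ∀ o : MulAction.orbitRel.Quotient Γ X, IsB1 (⊤ : Subgroup Γ)
      (fun g => csum (⊤ : Subgroup Γ) (MulAction.stabilizer Γ o.out) (fun t => projAt (fnAt o.out) t (f g))) := by
    intro o
    obtain ⟨a, ha⟩ := h o.out
    refine isB1_projSum le_top (hN.fin_quot le_top fun s hs => MulAction.mem_stabilizer_iff.2 (hX s hs _))
      (fun r hr w => fnAt_smul hr w) hf (a := fnAt o.out (constFn a : Fn X A)) fun r hr => ?_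
    have e : f r o.out = r • a - a := ha r hr
    rw [dd0, ← fnAt_smul hr, ← map_sub]
    ext y
    simp only [fnAt_apply, Fn.sub_apply, smul_apply_of_fix hr, e, constFn_apply]
  choose a ha using hloc
  refine ⟨∑ o, a o, fun g hg => ?_⟩
  conv_lhs => rw [← sum_orbits_projAt hN hX (f g)]
  rw [Finset.sum_congr rfl fun o _ => ha o g hg, dd0, Finset.smul_sum, ← Finset.sum_sub_distrib]
  rfl

/-- A 2-cocycle with values in a stable subgroup splits there if its values at every point do. -/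
theorem exists_fn_primitive (hN : Lvl (⊤ : Subgroup Γ) N) (hX : ∀ s ∈ N, ∀ x : X, s • x = x)
    (U : AddSubgroup A) (hU : ∀ (g : Γ), ∀ a ∈ U, g • a ∈ U) {c : Γ → Γ → Fn X A}
    (hc : IsZ2 (⊤ : Subgroup Γ) N c) (hcU : ∀ g k x, c g k x ∈ U)
    (h : ∀ x : X, ∃ b : Γ → A, IsLvl1 (MulAction.stabilizer Γ x) N b ∧
      (∀ g ∈ MulAction.stabilizer Γ x, b g ∈ U) ∧
      ∀ g ∈ MulAction.stabilizer Γ x, ∀ k ∈ MulAction.stabilizer Γ x, c g k x = dd1 b g k) :
    ∃ b : Γ → Fn X A, IsLvl1 (⊤ : Subgroup Γ) N b ∧ (∀ g x, b g x ∈ U) ∧ ∀ g k, c g k = dd1 b g k := by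
  classical
  have := Fintype.ofFinite (MulAction.orbitRel.Quotient Γ X)
  let T : AddSubgroup (Fn X A) :=
    { carrier := {w | ∀ y, w y ∈ U}
      zero_mem' := fun _ => U.zero_mem
      add_mem' := fun hw hw' y => U.add_mem (hw y) (hw' y)
      neg_mem' := fun hw y => U.neg_mem (hw y) }
  have hT : ∀ (g : Γ), ∀ w ∈ T, g • w ∈ T := fun g w hw y => hU g _ (hw _)
  have hat : ∀ x, ∀ w : Fn X A, w x ∈ U → fnAt x w ∈ T := fun x w hw y => by
    rw [fnAt_apply]
    split_ifs
    · exact hw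
    · exact U.zero_mem
  have hloc : ∀ o : MulAction.orbitRel.Quotient Γ X, ∃ b : Γ → Fn X A, IsLvl1 (⊤ : Subgroup Γ) N b ∧
      (∀ g, b g ∈ T) ∧ ∀ g k, csum (⊤ : Subgroup Γ) (MulAction.stabilizer Γ o.out)
        (fun t => projAt (fnAt o.out) t (c g k)) = dd1 b g k := by
    intro o
    obtain ⟨b, hb, hbU, hbc⟩ := h o.out
    have hle : N ≤ MulAction.stabilizer Γ o.out := fun s hs => MulAction.mem_stabilizer_iff.2 (hX s hs _)
    obtain ⟨β, hβ, hβc, hβT⟩ := exists_projSum hN le_top hle (hN.fin_quot le_top hle)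
      (fun r hr w => fnAt_smul hr w) hc (b := fun r => fnAt o.out (constFn (b r) : Fn X A))
      (fun r hr s hs => by simp only [hb r hr s hs]) fun r hr s hs => by
        have e : c r s o.out = r • b s - b (r * s) + b r := hbc r hr s hs
        rw [dd1, ← fnAt_smul hr, ← map_sub, ← map_add]
        ext y
        simp only [fnAt_apply, Fn.sub_apply, Fn.add_apply, smul_apply_of_fix hr, e, constFn_apply]
    refine ⟨β, hβ, fun g => hβT T hT (fun r hr => hat _ _ (hbU r hr)) (fun t _ g _ k _ => ?_) g,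
      fun g k => hβc g trivial k trivial⟩
    exact hT t _ (hat _ _ (hU t⁻¹ _ (hcU g k _)))
  choose b hb hbT hbc using hloc
  refine ⟨fun g => ∑ o, b o g, fun g hg s hs => Finset.sum_congr rfl fun o _ => hb o g hg s hs,
    fun g x => sum_mem (S := T) (fun o _ => hbT o g) x, fun g k => ?_⟩
  conv_lhs => rw [← sum_orbits_projAt hN hX (c g k)]
  rw [Finset.sum_congr rfl fun o _ => hbc o g k]
  simp only [dd1, Finset.sum_add_distrib, Finset.sum_sub_distrib, Finset.smul_sum]

/-- A 2-cocycle splits if its values at every point split on the stabiliser. -/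
theorem isB2_fn (hN : Lvl (⊤ : Subgroup Γ) N) (hX : ∀ s ∈ N, ∀ x : X, s • x = x) {c : Γ → Γ → Fn X A}
    (hc : IsZ2 (⊤ : Subgroup Γ) N c)
    (h : ∀ x : X, IsB2 (MulAction.stabilizer Γ x) N (fun g k => c g k x)) :
    IsB2 (⊤ : Subgroup Γ) N c := by
  obtain ⟨b, hb, -, hbc⟩ := exists_fn_primitive hN hX ⊤ (fun _ _ _ => trivial) hc (fun _ _ _ => trivial)
    fun x => by
      obtain ⟨b, hb, hbc⟩ := h x
      exact ⟨b, hb, fun _ _ => trivial, hbc⟩
  exact ⟨b, hb, fun g _ k _ => hbc g k⟩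

lemma isZ1_apply {f : Γ → Fn X A} (hf : IsZ1 (⊤ : Subgroup Γ) N f) (x : X) (hX : ∀ s ∈ N, s • x = x) :
    IsZ1 (MulAction.stabilizer Γ x) N (fun g => f g x) :=
  ⟨fun g _ s hs => by simp only [hf.1 g trivial s hs], fun g hg k _ => by
    show f (g * k) x = g • f k x + f g x
    rw [hf.2 g trivial k trivial, Fn.add_apply, smul_apply_of_fix hg]⟩

lemma isZ2_apply {c : Γ → Γ → Fn X A} (hc : IsZ2 (⊤ : Subgroup Γ) N c) (x : X) :
    IsZ2 (MulAction.stabilizer Γ x) N (fun g k => c g k x) :=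
  ⟨fun g _ k _ s hs t ht => by simp only [hc.1 g trivial k trivial s hs t ht], fun g hg k _ j _ => by
    have := congrArg (fun w : Fn X A => w x) (hc.2 g trivial k trivial j trivial)
    simpa only [Fn.sub_apply, Fn.add_apply, smul_apply_of_fix hg, Fn.zero_apply] using this⟩

/-- A 1-cocycle is killed by a multiple prime to `p` if its values at every point are. -/
theorem exists_nsmul_isB1_fn {p : ℕ} (hp : p.Prime) (hN : Lvl (⊤ : Subgroup Γ) N)
    (hX : ∀ s ∈ N, ∀ x : X, s • x = x) {f : Γ → Fn X A} (hf : IsZ1 (⊤ : Subgroup Γ) N f)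
    (h : ∀ x : X, ∃ n : ℕ, ¬ p ∣ n ∧ IsB1 (MulAction.stabilizer Γ x) (fun g => n • f g x)) :
    ∃ n : ℕ, ¬ p ∣ n ∧ IsB1 (⊤ : Subgroup Γ) (fun g => n • f g) := by
  classical
  have := Fintype.ofFinite X
  choose n hn hB using h
  refine ⟨∏ x, n x, ?_, ?_⟩
  · intro hd
    obtain ⟨x, -, hx⟩ := (hp.prime.dvd_finsetProd_iff _).1 hd
    exact hn x hx
  refine isB1_fn hN hX ⟨fun g _ s hs => by simp only [hf.1 g trivial s hs], fun g _ k _ => by
    simp only [hf.2 g trivial k trivial, nsmul_add, smul_comm g]⟩ fun x => ?_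
  obtain ⟨a, ha⟩ := hB x
  refine ⟨(∏ y ∈ Finset.univ.erase x, n y) • a, fun g hg => ?_⟩
  have e : n x • f g x = g • a - a := ha g hg
  show (∏ y, n y) • f g x = _
  rw [← Finset.prod_erase_mul _ _ (Finset.mem_univ x), mul_smul, e, dd0, smul_comm g, nsmul_sub]

/-- Every coefficient of finite level gives functions of finite level. -/
lemma exists_forall_fix {ι : Type*} (sup : ι → ι → ι) (grp : ι → Subgroup Γ)
    (hsup : ∀ i j, grp (sup i j) ≤ grp i ⊓ grp j) (i₀ : ι) {Y : Type*} [Finite Y] (P : Y → Γ → Prop)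
    (h : ∀ y, ∃ i, ∀ s ∈ grp i, P y s) : ∃ i, grp i ≤ grp i₀ ∧ ∀ y, ∀ s ∈ grp i, P y s := by
  classical
  have := Fintype.ofFinite Y
  choose j hj using h
  suffices ∀ t : Finset Y, ∃ i, grp i ≤ grp i₀ ∧ ∀ y ∈ t, ∀ s ∈ grp i, P y s by
    obtain ⟨i, h1, h2⟩ := this Finset.univ
    exact ⟨i, h1, fun y => h2 y (Finset.mem_univ y)⟩
  intro t
  induction t using Finset.induction_on with
  | empty => exact ⟨i₀, le_rfl, fun y hy => absurd hy (Finset.notMem_empty y)⟩
  | insert y t hy ih =>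
    obtain ⟨i, h1, h2⟩ := ih
    refine ⟨sup i (j y), ((hsup _ _).trans inf_le_left).trans h1, fun z hz s hs => ?_⟩
    rcases Finset.mem_insert.1 hz with rfl | hz
    · exact hj z s (hsup _ _ hs).2
    · exact h2 z hz s (hsup _ _ hs).1

end FLTAgent.Global
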