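import Fermat.Agent.Global.Bridge.Datum
import Fermat.Agent.Global.Fund.LocalNorms
import Fermat.Agent.Global.Fund.Cyclo
import Fermat.Agent.Global.Fund.CycLocal
import Fermat.Agent.Global.Semilocal.SemiUnits

/-!
Local primitives of classes with values in roots of unity: additive ones in the semilocal groups.
-/

set_option autoImplicit false
set_option linter.unusedSectionVars false
set_option linter.unusedVariables false
set_option synthInstance.maxHeartbeats 100000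

noncomputable section

namespace FLTAgent.Global

variable {X : Type*} [AddCommGroup X] [DistribMulAction GQ X] {L M : Level} {q : Nat.Primes}

lemma atPlace_map_smul {r : GQ} (hr : r ∈ placeSub M q (⊤ : Subgroup GQ) 1) (w : Fn X (Semi q)) :
    Fn.map (atPlace M q 1) (r • w) = r • Fn.map (atPlace M q 1) w :=
  Fn.ext fun x => atPlace_smul_of_place hr.2 _

lemma csum_projAt_map_one (w : Fn X (Semi q)) :
    csum (⊤ : Subgroup GQ) (placeSub M q (⊤ : Subgroup GQ) 1)
      (fun t => projAt (Fn.map (atPlace M q 1)) t w) = w := by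
  refine Fn.ext fun x => ?_
  have hf := (M.lvl (H := (⊤ : Subgroup GQ)) le_top).fin_quot le_top
    (grp_le_placeSub M q le_top 1)
  conv_rhs => rw [← csum_projAt_one (L := M) (w x)]
  show Fn.eval x (csum (⊤ : Subgroup GQ) (placeSub M q ⊤ 1) fun t => projAt (Fn.map (atPlace M q 1)) t w) = _
  rw [map_csum _ _ hf]
  refine csum_congr _ _ fun t _ => ?_
  show t • atPlace M q 1 (t⁻¹ • w ((t⁻¹)⁻¹ • (t⁻¹ • x))) = _
  rw [inv_inv, smul_inv_smul]
  rfl

/-- An additive splitting on the decomposition group gives an additive splitting. -/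
theorem exists_additive_of_dec {z : GQ → GQ → Fn X (Semi q)} (hz : IsZ2 (⊤ : Subgroup GQ) M.grp z)
    (hza : ∀ g k, del (z g k) = 0) {b : GQ → Fn X (Semi q)}
    (hb : IsLvl1 (placeSub M q (⊤ : Subgroup GQ) 1) M.grp b)
    (hba : ∀ r ∈ placeSub M q (⊤ : Subgroup GQ) 1, del (b r) = 0)
    (hbz : ∀ r ∈ placeSub M q (⊤ : Subgroup GQ) 1, ∀ s ∈ placeSub M q (⊤ : Subgroup GQ) 1,
      Fn.map (atPlace M q 1) (z r s) = dd1 b r s) :
    ∃ b' : GQ → Fn X (Semi q), IsLvl1 (⊤ : Subgroup GQ) M.grp b' ∧ (∀ g, del (b' g) = 0) ∧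
      ∀ g k, z g k = dd1 b' g k := by
  have hN := M.lvl (H := (⊤ : Subgroup GQ)) le_top
  have hND := grp_le_placeSub M q (le_top : M.grp ≤ ⊤) 1
  obtain ⟨β, hβ, hβc, hβT⟩ := exists_projSum hN le_top hND (hN.fin_quot le_top hND)
    (e := Fn.map (atPlace M q 1)) (fun r hr w => atPlace_map_smul hr w) hz hb hbz
  refine ⟨β, hβ, fun g => ?_, fun g k => (csum_projAt_map_one (z g k)).symm.trans (hβc g trivial k trivial)⟩
  refine AddMonoidHom.mem_ker.1 (hβT (del (M := X) (A := Semi q)).ker (fun t w hw => ?_)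
    (fun r hr => AddMonoidHom.mem_ker.2 (hba r hr)) (fun t _ g _ k _ => ?_) g)
  · rw [AddMonoidHom.mem_ker] at hw ⊢
    rw [← smul_del, hw]
    exact smul_zero (A := Fn (X × X) (Semi q)) t
  · rw [AddMonoidHom.mem_ker, projAt, ← smul_del, del_map, ← smul_del, hza]
    refine (congrArg (fun w => t • Fn.map (atPlace M q 1) w) (smul_zero (A := Fn (X × X) (Semi q)) t⁻¹)).trans ?_
    rw [map_zero]
    exact smul_zero (A := Fn (X × X) (Semi q)) t

/-- A cochain on `dec q` extended to the decomposition group of a level. -/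
theorem exists_dec_extension {A : Type*} [AddCommGroup A] [DistribMulAction GQ A] {k : GQ → A}
    (hk : IsLvl1 (dec q) M.grp k) (hfix : ∀ d ∈ dec q, ∀ t ∈ M.grp, t • k d = k d) {c : GQ → GQ → A}
    (hc : IsLvl2 (⊤ : Subgroup GQ) M.grp c) (hck : ∀ d ∈ dec q, ∀ d' ∈ dec q, c d d' = dd1 k d d') :
    ∃ k' : GQ → A, IsLvl1 (placeSub M q (⊤ : Subgroup GQ) 1) M.grp k' ∧
      (∀ r ∈ placeSub M q (⊤ : Subgroup GQ) 1, ∃ d ∈ dec q, k' r = k d) ∧
      ∀ r ∈ placeSub M q (⊤ : Subgroup GQ) 1, ∀ s ∈ placeSub M q (⊤ : Subgroup GQ) 1, c r s = dd1 k' r s := by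
  classical
  have hn := M.grp_normal
  have hdec : ∀ r ∈ placeSub M q (⊤ : Subgroup GQ) 1, ∃ d ∈ dec q, ∃ t ∈ M.grp, r = d * t := by
    intro r hr
    rw [placeSub_one_eq, ← SetLike.mem_coe, Subgroup.mul_normal] at hr
    obtain ⟨d, hd, t, ht, e⟩ := hr
    exact ⟨d, hd, t, ht, e.symm⟩
  let k' : GQ → A := fun r => if h : ∃ d ∈ dec q, d⁻¹ * r ∈ M.grp then k h.choose else 0
  have hkey : ∀ d ∈ dec q, ∀ t ∈ M.grp, k' (d * t) = k d := fun d hd t ht => by
    have hex : ∃ d' ∈ dec q, d'⁻¹ * (d * t) ∈ M.grp := ⟨d, hd, by simpa using ht⟩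
    simp only [k', dif_pos hex]
    obtain ⟨hd', hm⟩ := hex.choose_spec
    rw [← mul_assoc, Subgroup.mul_mem_cancel_right _ ht] at hm
    have := hk _ hd' _ hm
    rw [mul_inv_cancel_left] at this
    exact this.symm
  refine ⟨k', fun r hr s hs => ?_, fun r hr => ?_, fun r hr s hs => ?_⟩
  · obtain ⟨d, hd, t, ht, rfl⟩ := hdec r hr
    rw [mul_assoc, hkey d hd _ (mul_mem ht hs), hkey d hd t ht]
  · obtain ⟨d, hd, t, ht, rfl⟩ := hdec r hr
    exact ⟨d, hd, hkey d hd t ht⟩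
  · obtain ⟨d, hd, t, ht, rfl⟩ := hdec r hr
    obtain ⟨d', hd', t', ht', rfl⟩ := hdec s hs
    have hconj : d'⁻¹ * t * d' ∈ M.grp := by simpa using hn.conj_mem t ht d'⁻¹
    rw [hc d trivial d' trivial t ht t' ht', hck d hd d' hd', dd1, dd1,
      show d * t * (d' * t') = d * d' * ((d'⁻¹ * t * d') * t') by group,
      hkey d hd t ht, hkey d' hd' t' ht', hkey _ (mul_mem hd hd') _ (mul_mem hconj ht'), mul_smul,
      hfix d' hd' t ht]

/-- An auxiliary cyclotomic level with all residue degrees over `L` divisible by `p`. -/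
theorem exists_residue_level {p : ℕ} [Fact p.Prime] (hp2 : p ≠ 2) (L : Level) (q : Nat.Primes)
    (hq : L.UnrAt q) :
    ∃ M : Level, M.grp ≤ L.grp ∧ M.UnrAt q ∧
      p ∣ M.grp.relIndex (placeSub M q (⊤ : Subgroup GQ) 1 ⊓ L.grp) := by
  have hp : p.Prime := Fact.out
  have := L.finite_quotient
  have hLn := L.grp_normal
  set k := L.grp.index with hk
  have hk0 : 0 < k := by
    rw [hk, Subgroup.index_eq_card]
    exact Nat.card_pos
  obtain ⟨ℓ, -, hℓq, b, hkb, hord⟩ := exists_prime_order hp hp2 q.2 k ∅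
  have hqℓ : q ≠ ℓ := fun h => hℓq (congrArg Subtype.val h.symm)
  have hFℓ : Fact (ℓ : ℕ).Prime := ⟨ℓ.2⟩
  obtain ⟨τ, hτ⟩ := exists_cyc_loc_eq_natCast ℓ q hqℓ
  set x := loc q τ ^ k with hx
  set M := L.sup (cycLevel ℓ) with hM
  have hMgrp : M.grp = L.grp ⊓ (cyc ℓ).ker := grp_sup_cycLevel ℓ L
  refine ⟨M, L.sup_left _, ?_, ?_⟩
  · refine hq.sup fun A hA σ hσ => ?_
    rw [grp_cycLevel]
    exact cyc_inertia ℓ q.2 (fun h => hℓq h.symm) hA hσ
  set P1 := placeSub M q (⊤ : Subgroup GQ) 1 ⊓ L.grp with hP1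
  have hxP : x ∈ P1 := ⟨dec_le_placeSub_one (pow_mem (show loc q τ ∈ dec q from ⟨τ, rfl⟩) k), Subgroup.pow_index_mem L.grp _⟩
  have hMP : M.grp ≤ P1 := le_inf (grp_le_placeSub M q le_top 1) (L.sup_left _)
  have hlv : Lvl P1 M.grp := M.lvl hMP
  have := hlv.fin
  have hnorm : (M.grp.subgroupOf P1).Normal := M.grp_normal.subgroupOf P1
  have hpow : x ^ M.grp.relIndex P1 ∈ M.grp := by
    have h1 : (QuotientGroup.mk (⟨x, hxP⟩ : P1) : ↥P1 ⧸ M.grp.subgroupOf P1) ^ M.grp.relIndex P1 = 1 := by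
      rw [show M.grp.relIndex P1 = Nat.card (↥P1 ⧸ M.grp.subgroupOf P1) from rfl]
      exact pow_card_eq_one'
    rw [← QuotientGroup.mk_pow, QuotientGroup.eq_one_iff, Subgroup.mem_subgroupOf] at h1
    simpa using h1
  have hc : cyc ℓ (loc q τ) ^ (k * M.grp.relIndex P1) = 1 := by
    rw [pow_mul, ← map_pow, ← map_pow]
    exact (hMgrp.le hpow).2
  have hord' : orderOf (cyc ℓ (loc q τ)) = p ^ b := by rw [← orderOf_units, hτ, hord]
  have hdvd : p ^ b ∣ k * M.grp.relIndex P1 := hord' ▸ orderOf_dvd_of_pow_eq_one hc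
  by_contra hcon
  have h2 : p ^ b ∣ k := (Nat.Coprime.dvd_mul_right (Nat.Coprime.pow_left b
    (hp.coprime_iff_not_dvd.2 hcon))).1 hdvd
  have h3 := Nat.le_of_dvd hk0 h2
  have h4 : b < p ^ b := Nat.lt_pow_self hp.one_lt
  omega

/-- At an unramified prime a class killed by `p` splits additively after a cyclotomic extension. -/
theorem exists_additive_primitive {p : ℕ} [Fact p.Prime] (hp2 : p ≠ 2) (hp : ∀ x : X, p • x = 0)
    (hq : L.UnrAt q) {z : GQ → GQ → Fn X (Semi q)} (hz : IsZ2 (⊤ : Subgroup GQ) L.grp z)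
    (hza : ∀ g k, del (z g k) = 0) :
    ∃ (M : Level) (b : GQ → Fn X (Semi q)), M.grp ≤ L.grp ∧ M.UnrAt q ∧
      IsLvl1 (⊤ : Subgroup GQ) M.grp b ∧ (∀ g, del (b g) = 0) ∧ ∀ g k, z g k = dd1 b g k := by
  classical
  obtain ⟨M, hML, hM, hdeg⟩ := exists_residue_level (p := p) hp2 L q hq
  set P := placeSub M q (⊤ : Subgroup GQ) 1 with hP
  have hMP : M.grp ≤ P := grp_le_placeSub M q le_top 1
  have hlP : Lvl P M.grp := M.lvl hMP
  have hlT := M.lvl (H := (⊤ : Subgroup GQ)) le_top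
  have hzM : IsZ2 (⊤ : Subgroup GQ) M.grp z := hz.mono_lvl hML
  obtain ⟨σ, hσ, d, hd, hσd, hmin, hgen, -⟩ := exists_cyclic_placeSub hM (H := (⊤ : Subgroup GQ)) le_top 1
  -- the cocycle at the place
  set z' : GQ → GQ → Fn X (Semi q) := fun r s => Fn.map (atPlace M q 1) (z r s) with hz'
  have hz'Z : IsZ2 P M.grp z' := by
    refine ⟨fun r hr s hs u hu v hv => by simp only [hz', hzM.1 r trivial s trivial u hu v hv], fun r hr s hs j hj => ?_⟩
    rw [hz']
    rw [← atPlace_map_smul hr, ← map_sub, ← map_add, ← map_sub, hzM.2 r trivial s trivial j trivial, map_zero]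
  let U : AddSubgroup (Fn X (Semi q)) := fixSub M.grp ⊓ (del (M := X) (A := Semi q)).ker
  have hz'U : ∀ r ∈ P, ∀ s ∈ P, z' r s ∈ U := fun r hr s hs =>
    ⟨fun t ht => hz'Z.apply_mem_fixSub hlP hr hs t ht, AddMonoidHom.mem_ker.2 (by rw [hz', del_map, hza, map_zero])⟩
  have hsum : ∑ i ∈ Finset.range d, z' (σ ^ i) σ = 0 := by
    set P1 := P ⊓ L.grp with hP1
    have hMP1 : M.grp ≤ P1 := le_inf hMP hML
    have hF : ∀ g ∈ P, ∀ s ∈ P1, z' (g * s) σ = z' g σ := fun g hg s hs => by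
      have := hz.1 g trivial σ trivial s hs.2 1 L.grp.one_mem
      rw [mul_one] at this
      simp only [hz', this]
    rw [← csum_eq_sum_range hlP hσ hmin hgen (F := fun g => z' g σ)
        (fun g hg s hs => hF g hg s (hMP1 hs)),
      ← csum_tower hlP inf_le_left hMP1 (F := fun g => z' g σ) fun g hg s hs => hF g hg s (hMP1 hs)]
    refine (csum_congr P P1 (G := fun _ => (0 : Fn X (Semi q))) fun g hg => ?_).trans (csum_zero P P1)
    rw [csum_congr P1 M.grp (G := fun _ => z' g σ) fun t ht => hF g hg t ht,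
      csum_const (hlP.sub_left inf_le_left hMP1)]
    obtain ⟨j, hj⟩ := hdeg
    rw [← hP1, hj]
    refine Fn.ext fun x => ?_
    rw [Fn.nsmul_apply, mul_comm, mul_smul]
    rw [show p • z' g σ x = 0 from nsmul_eq_zero_of_del hp
      (by rw [hz', del_map, hza, map_zero]) x, smul_zero, Fn.zero_apply]
  obtain ⟨b, hb, hbU, hbc⟩ := isB2_of_cyclic_of_sum hlP U
    (fun r hr w hw => ⟨smul_mem_fixSub_of_lvl hlT trivial hw.1, by
      have h0 : del w = 0 := AddMonoidHom.mem_ker.1 hw.2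
      show del (r • w) = 0
      rw [← smul_del, h0]
      exact smul_zero (A := Fn (X × X) (Semi q)) r⟩)
    (fun s hs w hw => hw.1 s hs) hσ hd hσd hmin hgen hz'Z hz'U
    ⟨0, U.zero_mem, by
      rw [hsum]
      exact Finset.sum_eq_zero fun i _ => smul_zero (A := Fn X (Semi q)) _⟩
  obtain ⟨b', hb', hba', hbc'⟩ := exists_additive_of_dec hzM hza hb
    (fun r hr => AddMonoidHom.mem_ker.1 (hbU r hr).2) hbc
  exact ⟨M, b', hML, hM, hb', hba', hbc'⟩

end FLTAgent.Global
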