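import Fermat.Agent.Global.Bridge.Translate

/-!
The duality between the two groups of locally trivial classes of a representation.
-/

set_option autoImplicit false
set_option linter.unusedSectionVars false
set_option linter.unusedVariables false
set_option synthInstance.maxHeartbeats 100000

noncomputable section

namespace FLTAgent.Global

open CategoryTheory groupCohomology ExtCitation

section averaging

variable {k : Type} [CommRing k] {G : Type} [Group G] [Finite G] {A : Rep k G}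

/-- Averaging splits a 2-cocycle of a finite group of invertible order. -/
theorem levelCocycles_two_le_coboundaries (r : G →* GQ) (hn : IsUnit (Nat.card G : k)) :
    levelCocycles₂ r A ≤ levelCoboundaries₂ r A := by
  intro f hf
  obtain ⟨n', hn'⟩ := hn.exists_left_inv
  have := Fintype.ofFinite G
  obtain ⟨hc, F, hF, hlev⟩ := hf
  set x : G → A := fun g => n' • ∑ j : G, f (g, j) with hx
  refine (mem_levelCoboundaries₂_iff r A f).2 ⟨x, ⟨F, hF, fun g s hs => ?_⟩, funext fun gh => ?_⟩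
  · simp only [hx]
    refine congrArg (n' • ·) (Finset.sum_congr rfl fun j _ => ?_)
    have h := hlev g j s 1 hs (by rw [map_one]; exact one_mem _)
    rwa [mul_one] at h
  · obtain ⟨g, h⟩ := gh
    have e := congrArg (fun F : G → A => ∑ j : G, F j) (funext fun j => (mem_cocycles₂_iff f).1 hc g h j)
    simp only [Finset.sum_add_distrib, Finset.sum_const, Finset.card_univ] at e
    rw [← map_sum, Fintype.sum_equiv (Equiv.mulLeft h) (fun j => f (g, h * j)) (fun j => f (g, j))
      (fun j => rfl)] at e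
    have e2 : Fintype.card G • f (g, h)
        = A.ρ g (∑ j, f (h, j)) - ∑ j, f (g * h, j) + ∑ j, f (g, j) :=
      (eq_sub_of_add_eq' e).trans (sub_add_eq_add_sub _ _ _).symm
    rw [d₁₂_hom_apply]
    simp only [hx, map_smul, ← smul_sub, ← smul_add]
    rw [← e2, ← Nat.cast_smul_eq_nsmul k, ← Nat.card_eq_fintype_card, smul_smul, hn', one_smul]

/-- Averaging splits a 1-cocycle of a finite group of invertible order. -/
theorem cocycles_one_le_coboundaries (hn : IsUnit (Nat.card G : k)) (f : cocycles₁ A) :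
    H1π A f = 0 := by
  obtain ⟨n', hn'⟩ := hn.exists_left_inv
  have := Fintype.ofFinite G
  refine (H1π_eq_zero_iff f).2 ⟨-(n' • ∑ j : G, f j), funext fun g => ?_⟩
  have e := congrArg (fun F : G → A => ∑ j : G, F j) (funext fun j => (mem_cocycles₁_iff _).1 f.2 g j)
  simp only [Finset.sum_add_distrib, Finset.sum_const, Finset.card_univ] at e
  rw [← map_sum] at e
  replace e := (Fintype.sum_equiv (Equiv.mulLeft g) (fun j => f.1 (g * j)) (fun j => f.1 j)
      (fun j => rfl)).symm.trans e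
  have e2 : Fintype.card G • f g = ∑ j, f j - A.ρ g (∑ j, f j) := eq_sub_of_add_eq' e.symm
  rw [d₀₁_hom_apply]
  simp only [map_neg, map_smul, sub_neg_eq_add, neg_add_eq_sub, ← smul_sub]
  rw [← e2, ← Nat.cast_smul_eq_nsmul k, ← Nat.card_eq_fintype_card, smul_smul, hn', one_smul]

end averaging

variable {p : ℕ} [Fact p.Prime]

lemma archimedeanDecomposition_finite : Finite archimedeanDecomposition := by
  have h : IsOfFinOrder complexConjugation := isOfFinOrder_iff_pow_eq_one.2 ⟨2, two_pos, complexConjugation_sq⟩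
  exact h.finite_zpowers.to_subtype

lemma isUnit_card_archimedean (hp2 : p ≠ 2) : IsUnit (Nat.card archimedeanDecomposition : ZMod p) := by
  rw [isUnit_iff_ne_zero, Ne, ZMod.natCast_eq_zero_iff]
  intro h
  have h2 : Nat.card archimedeanDecomposition ∣ 2 := by
    rw [archimedeanDecomposition, Nat.card_zpowers]
    exact orderOf_dvd_of_pow_eq_one complexConjugation_sq
  exact hp2 ((Nat.prime_dvd_prime_iff_eq Fact.out Nat.prime_two).1 (h.trans h2))

variable {S : Finset Nat.Primes} {M : Rep (ZMod p) GQ}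

/-! ### Degree two -/

/-- A 2-cocycle with values in `M` as one with values in functions. -/
def cTwo (f : levelCocyclesS₂ S M) : GQ → GQ → Fn (TwDual M) QMul :=
  fun g k => thMap M ((f : GQ × GQ → M) (g, k))

lemma cTwo_add (f f' : levelCocyclesS₂ S M) : cTwo (f + f') = cTwo f + cTwo f' :=
  funext fun g => funext fun k => map_add (thMap M) _ _

theorem isSha2_cTwo (f : levelCocyclesS₂ S M) (h : continuousH2Sπ S M f ∈ sha₂ S M) :
    IsSha2 S (cTwo f) := by
  obtain ⟨hc, F, hF, hlev⟩ := f.2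
  obtain ⟨L, hL, hLF⟩ := exists_level_le_fixing hF
  refine ⟨⟨L, hL, fun g _ k _ s hs t ht => congrArg (thMap M) (hlev g k s t (hLF hs) (hLF ht)),
    fun g _ k _ j _ => ?_⟩, fun g k => del_thMap _, fun q hq => ?_⟩
  · show g • thMap M _ - thMap M _ + thMap M _ - thMap M _ = 0
    rw [← thMap_smul, ← map_sub, ← map_add, ← map_sub]
    refine (congrArg (thMap M) ?_).trans (map_zero _)
    have e := (mem_cocycles₂_iff _).1 hc g k j
    rw [sub_add_eq_add_sub, ← e]
    abel
  · have h0 : continuousH2π (loc q) (Rep.res (loc q) M)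
        (levelCocycles₂Map (rH := MonoidHom.id _) (rG := loc q)
          (loc q) (fun _ => rfl)
          (LinearMap.id : M →ₗ[ZMod p] Rep.res (loc q) M) (fun _ _ => rfl)
          (levelCocyclesS₂ToLevelCocycles₂ S M f)) = 0 :=
      congrFun (LinearMap.mem_ker.1 h) (Sum.inr ⟨q, hq⟩)
    obtain ⟨x, ⟨F', hF', hx⟩, hxf⟩ :=
      (mem_levelCoboundaries₂_iff _ _ _).1 ((continuousH2π_eq_zero_iff _ _ _).1 h0)
    have : FiniteDimensional ℚ F' := hF'
    obtain ⟨L', hL'⟩ := exists_level F'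
    have hsub : ∀ s ∈ L'.grp, s ∈ F'.fixingSubgroup := fun s hs =>
      IntermediateField.fixingSubgroup_antitone hL' hs
    let x' : Gq q → M := x
    have hx' : ∀ τ σ : Gq q, loc q σ ∈ F'.fixingSubgroup → x' (τ * σ) = x' τ := hx
    have hxf' : ∀ τ σ : Gq q, M.ρ (loc q τ) (x' σ) - x' (τ * σ) + x' τ
        = (f : GQ × GQ → M) (loc q τ, loc q σ) := fun τ σ =>
      (d₁₂_hom_apply (Rep.res (loc q) M) x (τ, σ)).symm.trans (congrFun hxf (τ, σ))
    classical
    let k : GQ → Fn (TwDual M) QMul := fun g =>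
      if h : ∃ τ : Gq q, (loc q τ)⁻¹ * g ∈ L'.grp then thMap M (x' h.choose) else 0
    have hk : ∀ (τ : Gq q) (g : GQ), (loc q τ)⁻¹ * g ∈ L'.grp → k g = thMap M (x' τ) := by
      intro τ g hg
      have hex : ∃ τ : Gq q, (loc q τ)⁻¹ * g ∈ L'.grp := ⟨τ, hg⟩
      simp only [k, dif_pos hex]
      refine congrArg (thMap M) ?_
      have hspec := hex.choose_spec
      generalize hex.choose = τ' at hspec ⊢
      have hm : loc q (τ⁻¹ * τ') ∈ L'.grp := by
        have := L'.grp.mul_mem hg (L'.grp.inv_mem hspec)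
        rw [map_mul, map_inv]
        simpa [mul_assoc] using this
      have := hx' τ (τ⁻¹ * τ') (hsub _ hm)
      rwa [mul_inv_cancel_left] at this
    have hkloc : ∀ τ : Gq q, k (loc q τ) = thMap M (x' τ) := fun τ =>
      hk τ _ (by rw [inv_mul_cancel]; exact one_mem _)
    refine ⟨L', k, fun g hg s hs => ?_, fun g hg => ?_, fun g hg j hj => ?_⟩
    · obtain ⟨τ, rfl⟩ := hg
      rw [hkloc, hk τ _ (by rw [inv_mul_cancel_left]; exact hs)]
    · obtain ⟨τ, rfl⟩ := hg
      rw [hkloc, del_thMap]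
    · obtain ⟨τ, rfl⟩ := hg
      obtain ⟨σ, rfl⟩ := hj
      rw [dd1, ← map_mul, hkloc, hkloc, hkloc, ← thMap_smul, ← map_sub, ← map_add]
      exact congrArg (thMap M) (hxf' τ σ).symm

variable [FiniteDimensional (ZMod p) M]

theorem cTwo_eq_zero_iff (f : levelCocyclesS₂ S M) :
    continuousH2Sπ S M f = 0 ↔ IsTriv S (cTwo f) := by
  rw [continuousH2Sπ_eq_zero_iff, mem_levelCoboundariesS₂_iff]
  constructor
  · rintro ⟨x, ⟨F, hF, hx⟩, hxf⟩
    obtain ⟨L, hL, hLF⟩ := exists_level_le_fixing hF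
    refine ⟨L, hL, fun g => thMap M (x g), fun g _ s hs => congrArg (thMap M) (hx g s (hLF hs)),
      fun g => del_thMap _, fun g k => ?_⟩
    rw [cTwo, ← congrFun hxf (g, k)]
    exact (congrArg (thMap M) (d₁₂_hom_apply M x (g, k))).trans (thMap_dd1 x g k)
  · rintro ⟨L, hL, k, hk, hk0, hck⟩
    refine ⟨fun g => thInv M (k g), ⟨L.fld, isUnramifiedOutside_fld hL, fun g s hs =>
      congrArg (thInv M) (hk g trivial s hs)⟩, funext fun gh => thMap_injective ?_⟩
    obtain ⟨g, h⟩ := gh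
    refine ((congrArg (thMap M) (d₁₂_hom_apply M _ (g, h))).trans (thMap_dd1 _ g h)).trans ?_
    simp only [thMap_thInv (hk0 _)]
    exact (hck g h).symm

theorem exists_cTwo (hp2 : p ≠ 2) {c : GQ → GQ → Fn (TwDual M) QMul} (hc : IsSha2 S c) :
    ∃ f : levelCocyclesS₂ S M, continuousH2Sπ S M f ∈ sha₂ S M ∧ cTwo f = c := by
  obtain ⟨L, hL, hlev, hcoc⟩ := hc.unr
  set f₀ : GQ × GQ → M := fun gk => thInv M (c gk.1 gk.2) with hf₀
  have e : ∀ g k, thMap M (f₀ (g, k)) = c g k := fun g k => thMap_thInv (hc.addv g k)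
  have hmem : f₀ ∈ levelCocyclesS₂ S M := by
    refine ⟨(mem_cocycles₂_iff _).2 fun g h j => thMap_injective ?_, L.fld, isUnramifiedOutside_fld hL,
      fun g g' s s' hs hs' => congrArg (thInv M) (hlev g trivial g' trivial s hs s' hs')⟩
    rw [map_add, map_add, thMap_smul, e, e, e, e]
    have e' := hcoc g trivial h trivial j trivial
    rw [eq_comm, ← sub_eq_zero, ← e']
    abel
  refine ⟨⟨f₀, hmem⟩, LinearMap.mem_ker.2 (funext fun v => ?_), funext fun g => funext fun k => e g k⟩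
  show continuousH2π (extArithLoc S v) (Rep.res (extArithLoc S v) M)
      (levelCocycles₂Map (rH := MonoidHom.id _) (rG := extArithLoc S v)
        (extArithLoc S v) (fun _ => rfl)
        (LinearMap.id : M →ₗ[ZMod p] Rep.res (extArithLoc S v) M) (fun _ _ => rfl)
        (levelCocyclesS₂ToLevelCocycles₂ S M ⟨f₀, hmem⟩)) = 0
  rw [continuousH2π_eq_zero_iff]
  match v with
  | Sum.inl u =>
    have := archimedeanDecomposition_finite
    exact levelCocycles_two_le_coboundaries (G := archimedeanDecomposition) archimedeanLoc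
      (isUnit_card_archimedean hp2) (Subtype.prop _)
  | Sum.inr ⟨q, hq⟩ =>
    show _ ∈ levelCoboundaries₂ (loc q) (Rep.res (loc q) M)
    obtain ⟨L', k, hk, hk0, hck⟩ := hc.loc q hq
    let x : Gq q → M := fun τ => thInv M (k (loc q τ))
    refine (mem_levelCoboundaries₂_iff _ _ _).2 ⟨x, ⟨L'.fld, L'.fin, fun τ σ hσ => ?_⟩, funext fun τσ => ?_⟩
    · show thInv M (k (loc q (τ * σ))) = thInv M (k (loc q τ))
      rw [map_mul]
      exact congrArg (thInv M) (hk _ ⟨τ, rfl⟩ _ hσ)
    · obtain ⟨τ, σ⟩ := τσ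
      refine (d₁₂_hom_apply (Rep.res (loc q) M) x (τ, σ)).trans ?_
      show M.ρ (loc q τ) (thInv M (k (loc q σ))) - thInv M (k (loc q (τ * σ))) + thInv M (k (loc q τ))
        = f₀ (loc q τ, loc q σ)
      refine thMap_injective ?_
      rw [map_add, map_sub, thMap_smul, thMap_thInv (hk0 _ ⟨σ, rfl⟩), thMap_thInv (hk0 _ ⟨_, rfl⟩),
        thMap_thInv (hk0 _ ⟨τ, rfl⟩), e, hck _ ⟨τ, rfl⟩ _ ⟨σ, rfl⟩, dd1, map_mul]

/-! ### Degree one -/

variable (M) in
/-- The twisted dual representation. -/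
abbrev dualRep : Rep (ZMod p) GQ := M.dualTwist (cycloChar p)

/-- A 1-cochain of the dual representation. -/
def cOne (f : cocycles₁ (dualRep M)) : GQ → TwDual M := fun g => f g

lemma cOne_add (f f' : cocycles₁ (dualRep M)) : cOne (f + f') = cOne f + cOne f' := rfl

theorem cOne_eq_zero_iff (f : cocycles₁ (dualRep M)) :
    H1π (dualRep M) f = 0 ↔ IsB1 (⊤ : Subgroup GQ) (cOne f) := by
  rw [H1π_eq_zero_iff]
  constructor
  · rintro ⟨a, ha⟩
    exact ⟨(a : TwDual M), fun g _ => ((congrFun ha g).symm.trans (d₀₁_hom_apply (dualRep M) a g) :)⟩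
  · rintro ⟨a, ha⟩
    exact ⟨a, funext fun g => (d₀₁_hom_apply (dualRep M) a g).trans (ha g trivial).symm⟩

theorem isSha_cOne (f : cocycles₁ (dualRep M)) (hl : IsLevelConstantS₁ S f)
    (h : H1π (dualRep M) f ∈ LinearMap.ker (locTotal (extArithLoc S) (dualRep M))) :
    IsSha S (cOne f) := by
  obtain ⟨F, hF, hlev⟩ := hl
  obtain ⟨L, hL, hLF⟩ := exists_level_le_fixing hF
  refine ⟨⟨L, hL, fun g _ s hs => hlev g s (hLF hs), fun g _ k _ => ((mem_cocycles₁_iff _).1 f.2 g k :)⟩,
    fun q hq => ?_⟩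
  have h0 : map (loc q)
      (𝟙 (Rep.res (loc q) (dualRep M))) 1 (H1π (dualRep M) f) = 0 :=
    congrFun (LinearMap.mem_ker.1 h) (Sum.inr ⟨q, hq⟩)
  rw [H1π_comp_map_apply] at h0
  obtain ⟨a, ha⟩ := (H1π_eq_zero_iff _).1 h0
  refine ⟨(a : TwDual M), fun g hg => ?_⟩
  obtain ⟨τ, rfl⟩ := hg
  exact ((congrFun ha τ).symm.trans
    (d₀₁_hom_apply (Rep.res (loc q) (dualRep M)) a τ) :)

theorem exists_cOne (hp2 : p ≠ 2) {φ : GQ → TwDual M} (hφ : IsSha S φ) :
    ∃ f : cocycles₁ (dualRep M), IsLevelConstantS₁ S f ∧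
      H1π (dualRep M) f ∈ LinearMap.ker (locTotal (extArithLoc S) (dualRep M)) ∧ cOne f = φ := by
  obtain ⟨L, hL, hlev, hcoc⟩ := hφ.unr
  let f : cocycles₁ (dualRep M) := ⟨(φ : GQ → dualRep M),
    (mem_cocycles₁_iff (A := dualRep M) (φ : GQ → dualRep M)).2 fun g k => hcoc g trivial k trivial⟩
  refine ⟨f, ⟨L.fld, isUnramifiedOutside_fld hL, fun g s hs => hlev g trivial s hs⟩,
    LinearMap.mem_ker.2 (funext fun v => ?_), rfl⟩
  show map (extArithLoc S v) (𝟙 (Rep.res (extArithLoc S v) (dualRep M))) 1 (H1π (dualRep M) f) = 0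
  rw [H1π_comp_map_apply]
  match v with
  | Sum.inl u =>
    have := archimedeanDecomposition_finite
    exact cocycles_one_le_coboundaries (G := archimedeanDecomposition) (isUnit_card_archimedean hp2) _
  | Sum.inr ⟨q, hq⟩ =>
    obtain ⟨a, ha⟩ := hφ.loc q hq
    show H1π (Rep.res (loc q) (dualRep M)) _ = 0
    refine (H1π_eq_zero_iff _).2 ⟨a, funext fun τ => ?_⟩
    exact (d₀₁_hom_apply (Rep.res (loc q) (dualRep M)) a τ).trans
      ((ha (loc q τ) ⟨τ, rfl⟩).symm :)

/-! ### Descent to classes -/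

/-- A biadditive function that kills the kernels of two surjections descends. -/
theorem exists_bilin {Y Z A B : Type*} [AddCommGroup Y] [AddCommGroup Z] [AddCommGroup A] [AddCommGroup B]
    [Module (ZMod p) A] [Module (ZMod p) B] (u : Y →+ A) (w : Z →+ B) (hu : Function.Surjective u)
    (hw : Function.Surjective w) (P : Y → Z → ZMod p)
    (hl : ∀ y y' z, P (y + y') z = P y z + P y' z) (hr : ∀ y z z', P y (z + z') = P y z + P y z')
    (hl0 : ∀ y z, u y = 0 → P y z = 0) (hr0 : ∀ y z, w z = 0 → P y z = 0) :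
    ∃ Q : A →ₗ[ZMod p] B →ₗ[ZMod p] ZMod p, ∀ y z, Q (u y) (w z) = P y z := by
  choose su hsu using hu
  choose sw hsw using hw
  have key : ∀ y z, P (su (u y)) (sw (w z)) = P y z := fun y z => by
    have h1 := hl (y - su (u y)) (su (u y)) z
    rw [sub_add_cancel, hl0 (y - su (u y)) z (by rw [map_sub, hsu, sub_self]), zero_add] at h1
    have h2 := hr (su (u y)) (z - sw (w z)) (sw (w z))
    rw [sub_add_cancel, hr0 (su (u y)) (z - sw (w z)) (by rw [map_sub, hsw, sub_self]), zero_add] at h2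
    rw [h1, h2]
  have la : ∀ a a' b, P (su (a + a')) (sw b) = P (su a) (sw b) + P (su a') (sw b) := fun a a' b => by
    have e := key (su a + su a') (sw b)
    rw [map_add, hsu, hsu, hsw] at e
    rw [e, hl]
  have ra : ∀ a b b', P (su a) (sw (b + b')) = P (su a) (sw b) + P (su a) (sw b') := fun a b b' => by
    have e := key (su a) (sw b + sw b')
    rw [map_add, hsw, hsw, hsu] at e
    rw [e, hr]
  let G : A → B →ₗ[ZMod p] ZMod p := fun a =>
    (AddMonoidHom.mk' (fun b => P (su a) (sw b)) (ra a)).toZModLinearMap p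
  refine ⟨(AddMonoidHom.mk' G fun a a' => LinearMap.ext fun b => la a a' b).toZModLinearMap p,
    fun y z => key y z⟩

theorem exists_sha_pairing (hp2 : p ≠ 2) (hpS : pP p ∈ S)
    (hsm : ∀ m : M, ∃ F : IntermediateField ℚ QQbar, FiniteDimensional ℚ F ∧
      ∀ s ∈ F.fixingSubgroup, M.ρ s m = m)
    (hMur : ∀ q : Nat.Primes, q ∉ S → ∀ A : ValuationSubring QQbar,
      A.LiesOverPrime (q : ℕ) → ∀ g ∈ A.inertiaSubgroupIn ℚ, M.ρ g = 1) :
    ∃ B : sha₁ S (dualRep M) →ₗ[ZMod p] sha₂ S M →ₗ[ZMod p] ZMod p,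
      (∀ y, (∀ x, B y x = 0) → y = 0) ∧ (∀ x, (∀ y, B y x = 0) → x = 0) := by
  have hS : SModule p S (TwDual M) := sModule_twDual hpS hsm hMur
  let Y : Submodule (ZMod p) (cocycles₁ (dualRep M)) :=
    levelCocyclesS₁ S (dualRep M) ⊓
      (LinearMap.ker (locTotal (extArithLoc S) (dualRep M))).comap (H1π (dualRep M)).hom
  let Z : Submodule (ZMod p) (levelCocyclesS₂ S M) := (sha₂ S M).comap (continuousH2Sπ S M)
  have hY : ∀ c : Y, IsSha S (cOne c.1) := fun c => isSha_cOne c.1 c.2.1 c.2.2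
  have hZ : ∀ c : Z, IsSha2 S (cTwo c.1) := fun c => isSha2_cTwo c.1 c.2
  let u : Y →+ sha₁ S (dualRep M) := AddMonoidHom.mk'
    (fun c => ⟨(H1π (dualRep M)).hom c.1,
      (mem_continuousH1S_iff S (dualRep M) _).2 ⟨c.1, c.2.1, rfl⟩, c.2.2⟩)
    fun c c' => Subtype.ext (map_add (H1π (dualRep M)).hom c.1 c'.1)
  let w : Z →+ sha₂ S M := AddMonoidHom.mk' (fun c => ⟨continuousH2Sπ S M c.1, c.2⟩)
    fun c c' => Subtype.ext (map_add (continuousH2Sπ S M) c.1 c'.1)
  have hu : Function.Surjective u := fun y => by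
    obtain ⟨c, hc, hcy⟩ := (mem_continuousH1S_iff S (dualRep M) _).1 y.2.1
    exact ⟨⟨c, hc, by
      show (H1π (dualRep M)).hom c ∈ LinearMap.ker (locTotal (extArithLoc S) (dualRep M))
      rw [hcy]; exact y.2.2⟩, Subtype.ext hcy⟩
  have hw : Function.Surjective w := fun x => by
    obtain ⟨c, hc⟩ := Submodule.Quotient.mk_surjective _ x.1
    exact ⟨⟨c, by
      show continuousH2Sπ S M c ∈ sha₂ S M
      rw [show continuousH2Sπ S M c = x.1 from hc]; exact x.2⟩, Subtype.ext hc⟩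
  obtain ⟨B, hB⟩ := exists_bilin (p := p) u w hu hw (fun c d => shaPair p S (cTwo d.1) (cOne c.1))
    (fun c c' d => by
      show shaPair p S (cTwo d.1) (cOne (c.1 + c'.1)) = _
      rw [cOne_add, shaPair_add_right hp2 hS (hZ d) (hY c) (hY c')])
    (fun c d d' => by
      show shaPair p S (cTwo (d.1 + d'.1)) (cOne c.1) = _
      rw [cTwo_add, shaPair_add_left hp2 hS (hZ d) (hZ d') (hY c)])
    (fun c d h => shaPair_isB1 hp2 hS (hZ d) (hY c) ((cOne_eq_zero_iff c.1).1 (congrArg Subtype.val h)))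
    (fun c d h => shaPair_triv hp2 hS (hZ d) ((cTwo_eq_zero_iff d.1).1 (congrArg Subtype.val h)) (hY c))
  refine ⟨B, fun y hy => ?_, fun x hx => ?_⟩
  · obtain ⟨c, rfl⟩ := hu y
    refine Subtype.ext ((cOne_eq_zero_iff c.1).2 (isB1_of_shaPair hp2 hpS hS (hY c) fun φ hφ => ?_))
    obtain ⟨f, hf, rfl⟩ := exists_cTwo hp2 hφ
    exact (hB c ⟨f, hf⟩).symm.trans (hy _)
  · obtain ⟨d, rfl⟩ := hw x
    refine Subtype.ext ((cTwo_eq_zero_iff d.1).2 (isTriv_of_shaPair hp2 hpS hS (hZ d) fun φ hφ => ?_))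
    obtain ⟨f, hf1, hf2, rfl⟩ := exists_cOne hp2 hφ
    exact (hB ⟨f, hf1, hf2⟩ d).symm.trans (hx _)

end FLTAgent.Global
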