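import Fermat.Agent.Global.Bridge.Surj

/-!
The pairing between `Ш¹_S(X)` and `Ш²_S` of the additive functions from `X` to roots of unity.
-/

set_option autoImplicit false
set_option linter.unusedSectionVars false
set_option linter.unusedVariables false
set_option synthInstance.maxHeartbeats 100000

noncomputable section

namespace FLTAgent.Global

variable {p : ℕ} [Fact p.Prime] {S : Finset Nat.Primes} {X : Type*} [AddCommGroup X] [DistribMulAction GQ X]
  {c c' : GQ → GQ → Fn X QMul} {f f' : GQ → X}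

variable (p S) in
open scoped Classical in
/-- The pairing. -/
def shaPair (c : GQ → GQ → Fn X QMul) (f : GQ → X) : ZMod p :=
  if h : ∃ x : ℕ × Fn (X × X) Idele × (GQ → Fn X QMul), ¬ p ∣ x.1 ∧ Datum S (x.1 • c) x.2.1 x.2.2 then
    (h.choose.1 : ZMod p)⁻¹ * clPair p (dExt h.choose.2.1) f
  else 0

lemma IsTriv.zero : IsTriv S (0 : GQ → GQ → Fn X QMul) :=
  ⟨Level.bot, fun q _ A _ s _ => by
    show s ∈ (⊥ : IntermediateField ℚ QQbar).fixingSubgroup
    rw [IntermediateField.fixingSubgroup_bot]; trivial,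
    0, fun _ _ _ _ => rfl, fun _ => map_zero del, fun g h => by simp [dd1]⟩

lemma IsSha2.add (hc : IsSha2 S c) (hc' : IsSha2 S c') : IsSha2 S (c + c') where
  unr := by
    obtain ⟨L, hL, hz⟩ := hc.unr
    obtain ⟨L', hL', hz'⟩ := hc'.unr
    exact ⟨L.sup L', fun q hq => (hL q hq).sup (hL' q hq),
      (hz.mono_lvl (L.sup_left L')).add' (hz'.mono_lvl (L.sup_right L'))⟩
  addv g h := by rw [Pi.add_apply, Pi.add_apply, map_add, hc.addv, hc'.addv, add_zero]
  loc q hq := by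
    obtain ⟨L, k, hk, hk0, hck⟩ := hc.loc q hq
    obtain ⟨L', k', hk', hk0', hck'⟩ := hc'.loc q hq
    refine ⟨L.sup L', k + k', (hk.mono le_rfl (L.sup_left L')).add (hk'.mono le_rfl (L.sup_right L')),
      fun g hg => ?_, fun g hg h hh => ?_⟩
    · rw [Pi.add_apply, map_add, hk0 g hg, hk0' g hg, add_zero]
    · rw [Pi.add_apply, Pi.add_apply, dd1_add, hck g hg h hh, hck' g hg h hh]

lemma IsSha.add (h : IsSha S f) (h' : IsSha S f') : IsSha S (f + f') where
  unr := by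
    obtain ⟨L, hL, hz⟩ := h.unr
    obtain ⟨L', hL', hz'⟩ := h'.unr
    refine ⟨L.sup L', fun q hq => (hL q hq).sup (hL' q hq),
      (hz.1.mono le_rfl (L.sup_left L')).add (hz'.1.mono le_rfl (L.sup_right L')), fun g _ k _ => ?_⟩
    simp only [Pi.add_apply, hz.2 g trivial k trivial, hz'.2 g trivial k trivial, smul_add]
    abel
  loc q hq := by
    obtain ⟨m, hm⟩ := h.loc q hq
    obtain ⟨m', hm'⟩ := h'.loc q hq
    exact ⟨m + m', fun g hg => by simp only [Pi.add_apply, hm g hg, hm' g hg, dd0, smul_add]; abel⟩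

variable [Finite X]

/-- A good level of a class. -/
theorem IsSha.exists_xlevel (hp2 : p ≠ 2) (hS : SModule p S X) (hf : IsSha S f) :
    ∃ L : Level, XLevel p X L ∧ IsZ1 (⊤ : Subgroup GQ) L.grp f := by
  obtain ⟨K, hμ, -, hX⟩ := hS.level
  obtain ⟨Lf, -, hz⟩ := hf.unr
  obtain ⟨G, hG⟩ := exists_goodLevel (p := p) hp2
  exact ⟨(Lf.sup K).sup G, ⟨hG.mono ((Lf.sup K).sup_right G),
    fun s hs => hX s (Lf.sup_right K ((Lf.sup K).sup_left G hs))⟩,
    hz.mono le_rfl (((Lf.sup K).sup_left G).trans (Lf.sup_left K))⟩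

variable {a a' : Fn (X × X) Idele} {β β' : GQ → Fn X QMul}

lemma clPair_dExt_add (hp2 : p ≠ 2) (hS : SModule p S X) (hf : IsSha S f) (D : Datum S c a β)
    (D' : Datum S c' a' β') :
    clPair p (dExt (a + a')) f = clPair p (dExt a) f + clPair p (dExt a') f := by
  obtain ⟨L, hL, hz⟩ := hf.exists_xlevel hp2 hS
  rw [dExt_add]
  exact clPair_add_left hp2 hL hS.tors (D.isExt _) (D'.isExt _) hz

lemma clPair_dExt_nsmul (hp2 : p ≠ 2) (hS : SModule p S X) (hf : IsSha S f) (D : Datum S c a β) (n : ℕ) :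
    clPair p (dExt (n • a)) f = (n : ZMod p) * clPair p (dExt a) f := by
  obtain ⟨L, hL, hz⟩ := hf.exists_xlevel hp2 hS
  rw [dExt_nsmul]
  exact clPair_nsmul_left hp2 hL hS.tors (D.isExt _) hz n

lemma Datum.clPair_eq_zero (hp2 : p ≠ 2) (hS : SModule p S X) (hf : IsSha S f) (D : Datum S c a β)
    (hc : IsTriv S c) : clPair p (dExt a) f = 0 := by
  obtain ⟨L, hL, -⟩ := hf.exists_xlevel hp2 hS
  exact clPair_eq_zero_of_inU hp2 hS hL (D.isExt _) (D.inU hS hc) hf

lemma Datum.clPair_eq (hp2 : p ≠ 2) (hS : SModule p S X) (hf : IsSha S f) (D : Datum S c a β)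
    (D' : Datum S c a' β') : clPair p (dExt a) f = clPair p (dExt a') f := by
  have h0 : c + -c = 0 := add_neg_cancel c
  have h1 := clPair_dExt_add hp2 hS hf D D'.neg
  rw [(D.add D'.neg).clPair_eq_zero hp2 hS hf (IsTriv.zero.congr fun g k => by rw [h0])] at h1
  have h2 := clPair_dExt_add hp2 hS hf D' D'.neg
  rw [(D'.add D'.neg).clPair_eq_zero hp2 hS hf (IsTriv.zero.congr fun g k => by rw [h0])] at h2
  exact add_right_cancel (h1.symm.trans h2)

/-- The pairing can be computed with any datum. -/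
theorem shaPair_eq (hp2 : p ≠ 2) (hS : SModule p S X) (hf : IsSha S f) {n : ℕ} (hn : ¬ p ∣ n)
    (D : Datum S (n • c) a β) : shaPair p S c f = (n : ZMod p)⁻¹ * clPair p (dExt a) f := by
  classical
  have hex : ∃ x : ℕ × Fn (X × X) Idele × (GQ → Fn X QMul), ¬ p ∣ x.1 ∧ Datum S (x.1 • c) x.2.1 x.2.2 :=
    ⟨(n, a, β), hn, D⟩
  rw [shaPair, dif_pos hex]
  obtain ⟨hm, D'⟩ := hex.choose_spec
  generalize hex.choose.2.1 = a' at D' ⊢
  generalize hex.choose.1 = m at hm D' ⊢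
  have e := Datum.clPair_eq hp2 hS hf (D'.nsmul n) ((D.nsmul m).congr (c' := n • m • c) fun g k => by
    rw [smul_comm n m])
  rw [clPair_dExt_nsmul hp2 hS hf D' n, clPair_dExt_nsmul hp2 hS hf D m] at e
  have hn' : (n : ZMod p) ≠ 0 := by rwa [Ne, ZMod.natCast_eq_zero_iff]
  have hm' : (m : ZMod p) ≠ 0 := by rwa [Ne, ZMod.natCast_eq_zero_iff]
  rw [inv_mul_eq_iff_eq_mul₀ hm', mul_left_comm, eq_inv_mul_iff_mul_eq₀ hn']
  exact e

theorem shaPair_add_left (hp2 : p ≠ 2) (hS : SModule p S X) (hc : IsSha2 S c) (hc' : IsSha2 S c')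
    (hf : IsSha S f) : shaPair p S (c + c') f = shaPair p S c f + shaPair p S c' f := by
  obtain ⟨n, hn, a, β, D⟩ := exists_datum hp2 hS hc
  obtain ⟨m, hm, a', β', D'⟩ := exists_datum hp2 hS hc'
  have D'' := ((D.nsmul m).add (D'.nsmul n)).congr (c' := (n * m) • (c + c')) fun g k => by
    rw [nsmul_add, mul_nsmul c n m, mul_nsmul' c' n m]
  rw [shaPair_eq hp2 hS hf (not_dvd_mul_of_not_dvd hn hm) D'', shaPair_eq hp2 hS hf hn D,
    shaPair_eq hp2 hS hf hm D', clPair_dExt_add hp2 hS hf (D.nsmul m) (D'.nsmul n),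
    clPair_dExt_nsmul hp2 hS hf D, clPair_dExt_nsmul hp2 hS hf D']
  have hn' : (n : ZMod p) ≠ 0 := by rwa [Ne, ZMod.natCast_eq_zero_iff]
  have hm' : (m : ZMod p) ≠ 0 := by rwa [Ne, ZMod.natCast_eq_zero_iff]
  push_cast
  field_simp

theorem shaPair_add_right (hp2 : p ≠ 2) (hS : SModule p S X) (hc : IsSha2 S c) (hf : IsSha S f)
    (hf' : IsSha S f') : shaPair p S c (f + f') = shaPair p S c f + shaPair p S c f' := by
  obtain ⟨n, hn, a, β, D⟩ := exists_datum hp2 hS hc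
  obtain ⟨L, hL, hz⟩ := hf.exists_xlevel hp2 hS
  obtain ⟨L', hL', hz'⟩ := hf'.exists_xlevel hp2 hS
  rw [shaPair_eq hp2 hS (hf.add hf') hn D, shaPair_eq hp2 hS hf hn D, shaPair_eq hp2 hS hf' hn D, ← mul_add,
    clPair_add_right hp2 (hL.mono (L.sup_left L')) hS.tors (D.isExt _) (hz.mono le_rfl (L.sup_left L'))
      (hz'.mono le_rfl (L.sup_right L'))]

theorem shaPair_triv (hp2 : p ≠ 2) (hS : SModule p S X) (hc : IsSha2 S c) (ht : IsTriv S c) (hf : IsSha S f) :
    shaPair p S c f = 0 := by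
  obtain ⟨n, hn, a, β, D⟩ := exists_datum hp2 hS hc
  rw [shaPair_eq hp2 hS hf hn D, D.clPair_eq_zero hp2 hS hf (ht.nsmul n), mul_zero]

theorem shaPair_isB1 (hp2 : p ≠ 2) (hS : SModule p S X) (hc : IsSha2 S c) (hf : IsSha S f)
    (hb : IsB1 (⊤ : Subgroup GQ) f) : shaPair p S c f = 0 := by
  obtain ⟨n, hn, a, β, D⟩ := exists_datum hp2 hS hc
  obtain ⟨L, hL, -⟩ := hf.exists_xlevel hp2 hS
  obtain ⟨x, hx⟩ := hb
  have e : f = dd0 x := funext fun g => hx g trivial
  rw [shaPair_eq hp2 hS hf hn D, e, clPair_dd0 hp2 hL (D.isExt _), mul_zero]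

/-- **Left non-degeneracy.** -/
theorem isTriv_of_shaPair (hp2 : p ≠ 2) (hpS : (⟨p, Fact.out⟩ : Nat.Primes) ∈ S) (hS : SModule p S X)
    (hc : IsSha2 S c) (h : ∀ f : GQ → X, IsSha S f → shaPair p S c f = 0) : IsTriv S c := by
  obtain ⟨n, hn, a, β, D⟩ := exists_datum hp2 hS hc
  have hn' : (n : ZMod p) ≠ 0 := by rwa [Ne, ZMod.natCast_eq_zero_iff]
  refine IsTriv.of_nsmul hS.tors hc.addv hn (D.isTriv_of_perp hp2 hpS hS ?_ fun f hf => ?_)
  · obtain ⟨L, hL, hz⟩ := hc.unr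
    refine ⟨⟨L, hL, fun g hg k hk s hs t ht => congrArg (n • ·) (hz.1 g hg k hk s hs t ht),
      fun g hg k hk j hj => ?_⟩, fun g k => ?_, fun q hq => ?_⟩
    · have := congrArg (n • ·) (hz.2 g hg k hk j hj)
      simpa only [Pi.smul_apply, nsmul_sub, nsmul_add, nsmul_zero, smul_comm g n] using this
    · rw [Pi.smul_apply, Pi.smul_apply, map_nsmul, hc.addv, nsmul_zero]
    · obtain ⟨L', k, hk, hk0, hck⟩ := hc.loc q hq
      refine ⟨L', n • k, fun g hg s hs => congrArg (n • ·) (hk g hg s hs), fun g hg => ?_, fun g hg j hj => ?_⟩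
      · rw [Pi.smul_apply, map_nsmul, hk0 g hg, nsmul_zero]
      · simp only [Pi.smul_apply, hck g hg j hj, dd1, smul_comm g n, nsmul_add, nsmul_sub]
  · have e := h f hf
    rw [shaPair_eq hp2 hS hf hn D] at e
    exact (mul_eq_zero.1 e).resolve_left (inv_ne_zero hn')

/-- **Right non-degeneracy.** -/
theorem isB1_of_shaPair (hp2 : p ≠ 2) (hpS : (⟨p, Fact.out⟩ : Nat.Primes) ∈ S) (hS : SModule p S X)
    (hf : IsSha S f) (h : ∀ c : GQ → GQ → Fn X QMul, IsSha2 S c → shaPair p S c f = 0) :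
    IsB1 (⊤ : Subgroup GQ) f := by
  by_contra hne
  obtain ⟨c, a, β, hc, D, hne'⟩ := exists_datum_pairing_ne_zero hp2 hpS hS hf hne
  have e := h c hc
  rw [shaPair_eq hp2 hS hf (n := 1) (Fact.out : p.Prime).not_dvd_one (D.congr fun g k => by rw [one_nsmul]),
    Nat.cast_one, inv_one, one_mul] at e
  exact hne' e

end FLTAgent.Global
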