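import Fermat.Agent.Global.Bridge.Exists

/-!
A non-trivial class of `Ш¹_S` is detected by the datum of some class of `Ш²_S`.
-/

set_option autoImplicit false
set_option linter.unusedSectionVars false
set_option linter.unusedVariables false
set_option synthInstance.maxHeartbeats 100000

noncomputable section

namespace FLTAgent.Global

variable {p : ℕ} [Fact p.Prime] {S : Finset Nat.Primes} {X : Type*} [AddCommGroup X] [DistribMulAction GQ X]

/-- A functional that separates an element from a subgroup. -/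
lemma exists_functional_aux {V : Type*} [AddCommGroup V] [Module (ZMod p) V] (U : AddSubgroup V) {v : V}
    (hv : v ∉ U) : ∃ φ : V →+ ZMod p, φ v ≠ 0 ∧ ∀ u ∈ U, φ u = 0 := by
  obtain ⟨φ, hφv, hφ⟩ := Submodule.exists_dual_map_eq_bot_of_notMem
    (p := AddSubgroup.toZModSubmodule p U) (x := v) hv inferInstance
  refine ⟨φ.toAddMonoidHom, hφv, fun u hu => ?_⟩
  have h : φ u ∈ (AddSubgroup.toZModSubmodule p U).map φ := Submodule.mem_map_of_mem hu
  rwa [hφ, Submodule.mem_bot] at h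

section generic

variable {A : Type*} [AddCommGroup A] [DistribMulAction GQ A]

lemma untwist_invariant {L : Subgroup GQ} {e : Pre GQ X A} (he : IsExt (⊤ : Subgroup GQ) L e) {n : ℕ}
    {w : Fn X A} {g : GQ} (hw : n • e.2 g = dd0 w g) : g • (n • e.1 - del w) = n • e.1 - del w := by
  refine sub_eq_zero.1 ?_
  rw [smul_sub, smul_comm g n, smul_del, sub_sub_sub_comm, ← nsmul_sub, he.eqv g trivial, ← map_sub,
    show g • w - w = n • e.2 g from hw.symm, map_nsmul, sub_self]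

lemma untwist_rel {e : Pre GQ X A} {n : ℕ} {w : Fn X A} (hw : ∀ g : GQ, n • e.2 g = dd0 w g) :
    ExtRel (⊤ : Subgroup GQ) ((n • e.1 - del w, 0) : Pre GQ X A) (n • e) := by
  refine ⟨-w, ?_, fun g hg => ?_⟩
  · show n • e.1 - del w - n • e.1 = _
    rw [map_neg, sub_sub_cancel_left]
  · show (0 : Fn X A) - n • e.2 g = _
    rw [hw g, dd0, dd0, smul_neg]
    abel

lemma smul_nsmul_fix {Y : Type*} [MulAction GQ Y] {a : Fn Y A} {g : GQ} (h : g • a = a) (m : ℕ) :
    g • (m • a) = m • a := by rw [smul_comm, h]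

end generic

lemma qval_neg' (a : QMul) : qval (-a) = (qval a)⁻¹ := Units.val_inv_eq_inv_val _

lemma qval_pow_eq_one_of_nsmul {ζ : QMul} {n : ℕ} (h : n • ζ = 0) : qval ζ ^ n = 1 := by
  rw [← qval_nsmul', h, qval_zero]

/-- A `p`-th root of unity of the completion is algebraic. -/
lemma exists_emb_root {q : Nat.Primes} {y : Kq q} (hy : y ^ p = 1) :
    ∃ ζ : QMul, p • ζ = 0 ∧ emb q (qval ζ) = y := by
  have hp : p.Prime := Fact.out
  have : NeZero p := ⟨hp.ne_zero⟩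
  obtain ⟨ζ, hζ⟩ := exists_primitiveRoot p
  have h' : IsPrimitiveRoot (emb q ζ) p := hζ.map_of_injective (emb q).injective
  obtain ⟨i, -, hi⟩ := h'.eq_pow_of_pow_eq_one hy
  refine ⟨i • toQMul ζ (hζ.ne_zero hp.ne_zero), ?_, ?_⟩
  · refine qmul_ext ?_
    rw [qval_nsmul', qval_nsmul', qval_toQMul, qval_zero, ← pow_mul, mul_comm, pow_mul, hζ.pow_eq_one, one_pow]
  · rw [qval_nsmul', qval_toQMul, map_pow, hi]

/-- The value at the fixed place of torsion functions. -/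
theorem exists_sha2_local {q : Nat.Primes} (hp : ∀ x : X, p • x = 0) {κ : GQ → Fn X (Semi q)}
    {N : Level} (hκ : IsLvl1 (⊤ : Subgroup GQ) N.grp κ) (hκ0 : ∀ g, del (κ g) = 0)
    {c : GQ → GQ → Fn X QMul} (hc : ∀ g h, Fn.map (qc q) (c g h) = dd1 κ g h) :
    ∃ k : GQ → Fn X QMul, IsLvl1 (dec q) N.grp k ∧ (∀ g ∈ dec q, del (k g) = 0) ∧
      ∀ g ∈ dec q, ∀ h ∈ dec q, c g h = dd1 k g h := by
  have hroot : ∀ g x, ∃ ζ : QMul, emb q (qval ζ) = sval (κ g x) 1 := fun g x => by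
    obtain ⟨ζ, -, hζ⟩ := exists_emb_root (p := p) (q := q) (y := sval (κ g x) 1) (by
      rw [← sval_nsmul, nsmul_eq_zero_of_del hp (hκ0 g) x, sval_zero])
    exact ⟨ζ, hζ⟩
  obtain ⟨k, hk⟩ : ∃ k : GQ → Fn X QMul, ∀ g x, emb q (qval (k g x)) = sval (κ g x) 1 :=
    ⟨fun g x => (hroot g x).choose, fun g x => (hroot g x).choose_spec⟩
  have hinj : ∀ {a b : QMul}, emb q (qval a) = emb q (qval b) → a = b :=
    fun h => qmul_ext ((emb q).injective h)
  refine ⟨k, fun g _ s hs => Fn.ext fun x => hinj ?_, fun g _ => Fn.ext fun ⟨x, y⟩ => hinj ?_,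
    fun g hg h _ => Fn.ext fun x => hinj ?_⟩
  · rw [hk, hk, hκ g trivial s hs]
  · have e := congrArg (fun F : Fn (X × X) (Semi q) => sval (F (x, y)) 1) (hκ0 g)
    simp only [del_apply, sub_eq_add_neg, sval_add, sval_neg, Fn.zero_apply, sval_zero] at e
    rw [Fn.zero_apply, qval_zero, map_one, ← e, ← hk g x, ← hk g y, ← hk g (x + y), ← map_inv₀, ← map_mul,
      ← map_mul, del_apply]
    congr 1
    rw [sub_eq_add_neg, qval_add, qval_add, qval_neg']
  · obtain ⟨τ, rfl⟩ := hg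
    have e := congrArg (fun F : Fn X (Semi q) => sval (F x) 1) (hc (loc q τ) h)
    simp only [Fn.map_apply, sval_qc, AlgEquiv.one_apply, dd1, Fn.add_apply, Fn.smul_apply, Fn.neg_apply,
      sub_eq_add_neg, sval_add, sval_neg, sval_smul, one_mul] at e
    have e1 : sval (κ h ((loc q τ)⁻¹ • x)) (loc q τ) = emb q (qval (loc q τ • k h ((loc q τ)⁻¹ • x))) := by
      have := sval_loc (κ h ((loc q τ)⁻¹ • x)) τ 1
      rw [mul_one] at this
      rw [this, ← hk, qval_smul, emb_loc]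
    rw [e, e1, ← hk, ← hk, dd1, Fn.add_apply, Fn.sub_apply, Fn.smul_apply, ← map_inv₀, ← map_mul, ← map_mul]
    congr 1
    rw [sub_eq_add_neg, qval_add, qval_add, qval_neg']

/-- Fixed semilocal elements are `p`-th multiples. -/
theorem exists_semi_root {q : Nat.Primes} (L : Level) {x : Semi q} (hx : x ∈ fixSub (A := Semi q) L.grp)
    {n : ℕ} (hn : n ≠ 0) : ∃ r : Semi q, x = n • r := by
  obtain ⟨a, -, ha⟩ := exists_principal_approx L le_rfl n hn {q} (x := single q x)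
    (fun s hs => by rw [← single_smul, hx s hs])
  obtain ⟨y, -, hy⟩ := ha q (Finset.mem_singleton_self q)
  obtain ⟨α, hα⟩ := exists_eq_nsmul_qmul hn a
  rw [map_sub, comp_single, sub_eq_iff_eq_add, hα, ← qc_apply, map_nsmul, ← nsmul_add] at hy
  exact ⟨_, hy⟩

/-- A multiple prime to `p` of a fixed idele is principal up to units, after an unramified extension. -/
theorem exists_class_multiple (hpS : (⟨p, Fact.out⟩ : Nat.Primes) ∈ S) (L : Level)
    (hL : ∀ q ∉ S, L.UnrAt q) :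
    ∃ m : ℕ, ¬ p ∣ m ∧ ∀ {ι : Type*} [Finite ι] (x : ι → Idele), (∀ i, x i ∈ fixSub (A := Idele) L.grp) →
      ∃ L' : Level, L'.grp ≤ L.grp ∧ (∀ q ∉ S, L'.UnrAt q) ∧ ∀ i, ∃ ρ ∈ fixSub (A := QMul) L'.grp,
        m • x i - principal ρ ∈ sIdele S ⊓ fixSub L'.grp := by
  classical
  have hp : p.Prime := Fact.out
  obtain ⟨Y, hY, hrep⟩ := exists_finset_ideleReps L (H := L.grp) le_rfl
  set F := fixSub (A := Idele) L.grp with hF
  set B : AddSubgroup Idele := (fixSub (A := QMul) L.grp).map principal ⊔ (sIdele S ⊓ F) with hB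
  have hfin : Finite (↥F ⧸ B.addSubgroupOf F) := by
    refine Finite.of_surjective (fun y : Y => (QuotientAddGroup.mk ⟨y.1, hY y.1 y.2⟩ : ↥F ⧸ B.addSubgroupOf F))
      fun c => ?_
    obtain ⟨⟨x, hx⟩, rfl⟩ := QuotientAddGroup.mk_surjective c
    obtain ⟨y, hy, a, ha, hu⟩ := hrep x hx
    refine ⟨⟨y, hy⟩, (QuotientAddGroup.eq).2 ?_⟩
    rw [AddSubgroup.mem_addSubgroupOf]
    show -y + x ∈ B
    have e : -y + x = principal a + (x - y - principal a) := by abel
    rw [e]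
    exact add_mem (AddSubgroup.mem_sup_left ⟨a, ha, rfl⟩) (AddSubgroup.mem_sup_right
      ⟨fun q _ => hu q (Finset.notMem_empty q), AddSubgroup.sub_mem (fixSub (A := Idele) L.grp)
        (AddSubgroup.sub_mem (fixSub (A := Idele) L.grp) hx (hY y hy)) (principal_mem_fixSub ha)⟩)
  obtain ⟨t, m, hm, htm⟩ := Nat.exists_eq_pow_mul_and_not_dvd
    (Nat.card_pos (α := ↥F ⧸ B.addSubgroupOf F)).ne' p hp.ne_one
  refine ⟨m, hm, fun {ι} _ x hx => ?_⟩
  have hpt : p ^ t ≠ 0 := pow_ne_zero _ hp.ne_zero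
  have hdec : ∀ i, ∃ ρ : QMul, p ^ t • ρ ∈ fixSub (A := QMul) L.grp ∧
      ∀ q ∉ S, comp q (m • x i - principal ρ) ∈ semiUnit q := by
    intro i
    have h1 : (p ^ t * m) • (x i) ∈ B := by
      have := card_nsmul_eq_zero' (G := ↥F ⧸ B.addSubgroupOf F) (x := QuotientAddGroup.mk ⟨x i, hx i⟩)
      rw [← QuotientAddGroup.mk_nsmul, QuotientAddGroup.eq_zero_iff, AddSubgroup.mem_addSubgroupOf, htm] at this
      exact this
    obtain ⟨_, ⟨ρ', hρ', rfl⟩, u, ⟨hu, -⟩, e⟩ := AddSubgroup.mem_sup.1 h1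
    obtain ⟨ρ, rfl⟩ := exists_eq_nsmul_qmul hpt ρ'
    refine ⟨ρ, hρ', fun q hq => semiUnit_of_nsmul hpt ?_⟩
    rw [← map_nsmul, nsmul_sub, ← map_nsmul, ← mul_nsmul', ← e, add_sub_cancel_left]
    exact hu q hq
  choose ρ hρfix hρu using hdec
  obtain ⟨L', hL'L, hL', hfix⟩ := exists_level_roots S L hL ρ fun i q hq => by
    refine ⟨p ^ t, Nat.Coprime.pow_right t ((Nat.coprime_primes q.2 hp).2 fun h => hq ?_), hρfix i,
      comp q (m • x i), comp_mem_fixSub (nsmul_mem (hx i) m) q, ?_⟩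
    · rw [show q = ⟨p, Fact.out⟩ from Subtype.ext h]; exact hpS
    · have := neg_mem (hρu i q hq)
      rwa [map_sub, neg_sub] at this
  exact ⟨L', hL'L, hL', fun i => ⟨ρ i, hfix i, hρu i,
    AddSubgroup.sub_mem (fixSub (A := Idele) L'.grp) (fun s hs => nsmul_mem (hx i) m s (hL'L hs))
      (principal_mem_fixSub (hfix i))⟩⟩

variable [Finite X]

/-- An invariant cocycle of classes, lifted to ideles. -/
theorem exists_lift_symCoc (hp : ∀ x : X, p • x = 0) (L : Level) {a : Fn (X × X) Cl} (ha : a ∈ symCoc)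
    (hfix : ∀ z, a z ∈ fixSub (A := Cl) L.grp) :
    ∃ a' : Fn (X × X) Idele, a' ∈ symCoc ∧ (∀ z, a' z ∈ fixSub (A := Idele) L.grp) ∧ clFn a' = a := by
  obtain ⟨φ, hφ, γ, hγ, hγR, e⟩ := exists_symForm (p := p) hp (W := fixSub (A := Cl) L.grp)
    (W' := fixSub (A := Cl) L.grp) toCl (R := fixSub (A := Idele) L.grp)
    (fun c hc => by
      obtain ⟨y, hy, hyc⟩ := exists_fix_toCl_eq L le_rfl hc
      exact ⟨y, hy, 0, zero_mem _, by rw [hyc, smul_zero]; exact (add_zero c).symm⟩) ha hfix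
  have hl : ∀ x, ∃ y ∈ fixSub (A := Idele) L.grp, toCl y = φ x := fun x =>
    exists_fix_toCl_eq L le_rfl ((sup_le le_rfl le_rfl :
      fixSub (A := Cl) L.grp ⊔ fixSub L.grp ≤ fixSub L.grp) (hφ x))
  obtain ⟨Φ, hΦ⟩ : ∃ Φ : Fn X Idele, ∀ x, Φ x ∈ fixSub (A := Idele) L.grp ∧ toCl (Φ x) = φ x :=
    ⟨fun x => (hl x).choose, fun x => (hl x).choose_spec⟩
  refine ⟨γ + del Φ, add_mem hγ (del_mem_symCoc Φ), fun ⟨u, v⟩ => ?_, Fn.ext fun ⟨u, v⟩ => ?_⟩
  · exact add_mem (hγR _) (sub_mem (add_mem (hΦ u).1 (hΦ v).1) (hΦ _).1)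
  · show toCl (γ (u, v) + (Φ u + Φ v - Φ (u + v))) = _
    rw [map_add, map_sub, map_add, (hΦ u).2, (hΦ v).2, (hΦ _).2, e, del_apply, add_comm]

/-- A cocycle of ideles with values in principal ideles plus units splits accordingly. -/
theorem exists_split_principal (hp : ∀ x : X, p • x = 0) (L : Level) {a : Fn (X × X) Idele} (ha : a ∈ symCoc)
    (h : ∀ z, ∃ ρ ∈ fixSub (A := QMul) L.grp, a z - principal ρ ∈ sIdele S ⊓ fixSub L.grp) :
    ∃ (D : Fn (X × X) QMul) (U : Fn (X × X) Idele), D ∈ symCoc ∧ U ∈ symCoc ∧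
      (∀ z, D z ∈ fixSub (A := QMul) L.grp) ∧ (∀ z, U z ∈ sIdele S ⊓ fixSub L.grp) ∧
      ∀ z, a z = principal (D z) + U z := by
  let ψ : QMul × Idele →+ Idele := principal.coprod (AddMonoidHom.id _)
  set R : AddSubgroup (QMul × Idele) := (fixSub (A := QMul) L.grp).prod (sIdele S ⊓ fixSub L.grp) with hR
  obtain ⟨φ, hφ, γ, hγ, hγR, e⟩ := exists_symForm (p := p) hp (W := R.map ψ) (W' := ⊥) ψ (R := R)
    (fun c hc => by
      obtain ⟨y, hy, rfl⟩ := hc
      exact ⟨y, hy, 0, zero_mem _, by rw [smul_zero, add_zero]⟩) ha fun z => by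
      obtain ⟨ρ, hρ, hu⟩ := h z
      exact ⟨(ρ, a z - principal ρ), ⟨hρ, hu⟩, by simp [ψ]⟩
  have hl : ∀ x, ∃ y ∈ R, ψ y = φ x := fun x => by
    have := hφ x
    rw [sup_bot_eq] at this
    exact this
  obtain ⟨Φ, hΦ⟩ : ∃ Φ : Fn X (QMul × Idele), ∀ x, Φ x ∈ R ∧ ψ (Φ x) = φ x :=
    ⟨fun x => (hl x).choose, fun x => (hl x).choose_spec⟩
  have hGs : γ + del Φ ∈ symCoc := add_mem hγ (del_mem_symCoc Φ)
  have hGR : ∀ z, (γ + del Φ) z ∈ R := fun ⟨u, v⟩ =>
    add_mem (hγR _) (sub_mem (add_mem (hΦ u).1 (hΦ v).1) (hΦ _).1)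
  refine ⟨fun z => ((γ + del Φ) z).1, fun z => ((γ + del Φ) z).2,
    ⟨fun m n => congrArg Prod.fst (hGs.1 m n), fun m n k => congrArg Prod.fst (hGs.2 m n k)⟩,
    ⟨fun m n => congrArg Prod.snd (hGs.1 m n), fun m n k => congrArg Prod.snd (hGs.2 m n k)⟩,
    fun z => (hGR z).1, fun z => (hGR z).2, fun ⟨u, v⟩ => ?_⟩
  rw [e (u, v), del_apply]
  show _ = ψ (γ (u, v) + (Φ u + Φ v - Φ (u + v)))
  rw [map_add, map_sub, map_add, (hΦ u).2, (hΦ v).2, (hΦ _).2, add_comm]

/-- A unit cocycle with principal defect of invariance is the datum of a class. -/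
theorem exists_datum_of_units (hpS : (⟨p, Fact.out⟩ : Nat.Primes) ∈ S) (hp : ∀ x : X, p • x = 0) (L : Level)
    (hL : ∀ q ∉ S, L.UnrAt q) (hX : ∀ s ∈ L.grp, ∀ x : X, s • x = x)
    {U : Fn (X × X) Idele} (hU : U ∈ symCoc) (hUu : ∀ z, U z ∈ sIdele S ⊓ fixSub L.grp)
    (hinv : ∀ g : GQ, ∃ Δ : Fn (X × X) QMul, Fn.map principal Δ = g • U - U) :
    ∃ (c : GQ → GQ → Fn X QMul) (β : GQ → Fn X QMul), IsSha2 S c ∧ Datum S c U β := by
  classical
  have hp' : p.Prime := Fact.out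
  have hp0 := hp'.ne_zero
  have hn := L.grp_normal
  have := L.finite_quotient
  have hXX : ∀ s ∈ L.grp, ∀ z : X × X, s • z = z := fun s hs z => Prod.ext (hX s hs _) (hX s hs _)
  choose Δ hΔ using hinv
  have hΔz : ∀ g z, principal (Δ g z) = g • U (g⁻¹ • z) - U z := fun g z => by
    rw [← Fn.map_apply principal, hΔ, Fn.sub_apply, Fn.smul_apply]
  have hUf : ∀ s ∈ L.grp, s • U = U := (fn_fixed_iff hX hXX U).2 fun z => (hUu z).2
  have hΔs : ∀ g, Δ g ∈ symCoc := fun g => by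
    have h : g • U - U ∈ symCoc := sub_mem (smul_mem_symCoc hU g) hU
    rw [← hΔ g] at h
    exact ⟨fun m n => principal_injective (h.1 m n), fun m n k => principal_injective (by
      rw [map_add, map_add]; exact h.2 m n k)⟩
  have hΔu : ∀ g : GQ, ∀ z, Δ g z ∈ sUnit S ⊓ fixSub (A := QMul) L.grp := by
    refine fun g z => ⟨fun q hq => ?_, fun s hs => principal_injective ?_⟩
    · rw [hΔz, map_sub, comp_smul]
      exact sub_mem (smul_mem_semiUnit q ((hUu _).1 q hq) g) ((hUu z).1 q hq)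
    · rw [principal_smul, hΔz, smul_sub, ← mul_smul, show s * g = g * (g⁻¹ * s * g) by group, mul_smul,
        (hUu _).2 _ (by simpa using hn.conj_mem s hs g⁻¹), (hUu z).2 s hs]
  have hroot : ∀ Q : GQ ⧸ L.grp, ∃ φ : Fn X QMul, (∀ x, p • φ x ∈ sUnit S ⊓ fixSub (A := QMul) L.grp) ∧
      Δ Q.out = del φ := by
    intro Q
    obtain ⟨φ, hφ, e⟩ := exists_eq_del (p := p) hp (W := sUnit S ⊓ fixSub (A := QMul) L.grp)
      (W' := (sUnit S ⊓ fixSub (A := QMul) L.grp).comap (nsmulAddMonoidHom p))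
      (fun u hu => by
        obtain ⟨r, hr⟩ := exists_eq_nsmul_qmul hp0 u
        exact ⟨r, show p • r ∈ _ by rwa [← hr], hr⟩)
      (hΔs _) (hΔu _)
    refine ⟨φ, fun x => ?_, e⟩
    exact (sup_le (fun u hu => (nsmul_mem hu p :)) le_rfl : sUnit S ⊓ fixSub (A := QMul) L.grp ⊔ _ ≤
      (sUnit S ⊓ fixSub (A := QMul) L.grp).comap (nsmulAddMonoidHom p)) (hφ x)
  choose φ hφp hφ using hroot
  have hunit : ∀ Q x, ∀ q ∉ S, qc q (φ Q x) ∈ semiUnit q := fun Q x q hq => by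
    refine semiUnit_of_nsmul hp0 ?_
    rw [← map_nsmul]
    exact (hφp Q x).1 q hq
  obtain ⟨L4, hL4, hL4S, hfix⟩ := exists_level_roots S L hL (ι := (GQ ⧸ L.grp) × X) (fun i => φ i.1 i.2)
    fun i q hq => ⟨p, (Nat.coprime_primes q.2 hp').2 fun h => hq (by
        rw [show q = ⟨p, Fact.out⟩ from Subtype.ext h]; exact hpS), (hφp i.1 i.2).2, 0, zero_mem _, by
      rw [sub_zero]; exact hunit _ _ q hq⟩
  set β : GQ → Fn X QMul := fun g => φ (QuotientGroup.mk g) with hβdef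
  have hΔeq : ∀ g : GQ, Fn.map principal (del (β g)) = g • U - U := fun g => by
    have h : g⁻¹ * (QuotientGroup.mk g : GQ ⧸ L.grp).out ∈ L.grp := by
      rw [← QuotientGroup.eq, QuotientGroup.out_eq']
    rw [show β g = φ (QuotientGroup.mk g) from rfl, ← hφ, hΔ]
    conv_lhs => rw [show (QuotientGroup.mk g : GQ ⧸ L.grp).out = g * (g⁻¹ * (QuotientGroup.mk g : GQ ⧸ L.grp).out) by group]
    rw [mul_smul, hUf _ h]
  have hβl : IsLvl1 (⊤ : Subgroup GQ) L4.grp β := fun g _ s hs =>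
    congrArg φ (QuotientGroup.mk_mul_of_mem g (hL4 hs))
  have hX4 : ∀ s ∈ L4.grp, ∀ x : X, s • x = x := fun s hs => hX s (hL4 hs)
  have hβf : ∀ g, ∀ s ∈ L4.grp, s • β g = β g := fun g => (fn_fixed_iff hX4 hX4 (β g)).2 fun x => hfix (_, x)
  refine ⟨dd1 β, β, ⟨⟨L4, hL4S, isZ2_dd1 (L4.lvl le_top) hβl fun g _ => hβf g⟩, fun g h => ?_, fun q hq => ?_⟩,
    hU, ⟨L4, fun s hs => hUf s (hL4 hs), hβl⟩, fun g h => rfl,
    fun g => (hΔeq g).symm, fun q hq => ⟨L4, hL4S q hq, 0, fun g hg s hs => ?_, fun g x => ?_, fun z => ?_⟩⟩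
  · -- additivity of the values
    have hinj : ∀ {u : Fn (X × X) QMul}, Fn.map principal u = 0 → u = 0 := fun e => Fn.ext fun z =>
      principal_injective ((congrArg (fun F : Fn (X × X) Idele => F z) e).trans (map_zero principal).symm)
    refine hinj ?_
    simp only [dd1, map_add del, map_sub del, ← smul_del, map_add, map_sub,
      Fn.map_smul (fun g a => principal_smul g a), hΔeq, smul_sub, mul_smul]
    abel
  · -- the local condition
    set Uq : Fn (X × X) (Semi q) := Fn.map (comp q) U with hUq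
    obtain ⟨ψ, -, hψ⟩ := exists_eq_del (p := p) hp (W := fixSub (A := Semi q) L.grp) (W' := ⊤)
      (fun u hu => by
        obtain ⟨r, hr⟩ := exists_semi_root L hu hp0
        exact ⟨r, trivial, hr⟩) (Fn.map_mem_symCoc (φ := comp q) hU)
      fun z => comp_mem_fixSub (hUu z).2 q
    obtain ⟨N, hN, hψf⟩ := exists_level_fix_fn exists_level_fix_semi L4 hX4 ψ
    have hd : ∀ g, del (Fn.map (qc q) (β g) - dd0 ψ g) = 0 := fun g => by
      have e : Fn.map (qc q) (del (β g)) = g • Uq - Uq := by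
        show Fn.map (comp q) (Fn.map principal (del (β g))) = _
        rw [hΔeq, map_sub, Fn.map_smul (comp_smul q)]
      rw [map_sub del, dd0, map_sub del, ← smul_del, del_map, e, ← hψ]
      exact sub_self _
    obtain ⟨k, hk, hk0, hkc⟩ := exists_sha2_local (q := q) hp (κ := fun g => Fn.map (qc q) (β g) - dd0 ψ g)
      (N := N) (fun g hg s hs => by
        simp only [hβl g hg s (hN hs), dd0, mul_smul, hψf s hs]) hd (c := dd1 β) fun g h => by
        rw [show (fun g => Fn.map (qc q) (β g) - dd0 ψ g) = (fun g => Fn.map (qc q) (β g)) - dd0 ψ from rfl,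
          dd1_sub, dd1_dd0, sub_zero]
        simp only [dd1, map_add, map_sub, Fn.map_smul (qc_smul q)]
    exact ⟨N, k, hk, hk0, hkc⟩
  · simp only [hβl g hg s hs, dd0, fn_smul_zero, sub_self]
  · rw [dd0, fn_smul_zero, sub_self, sub_zero, Fn.map_apply]
    exact hunit _ x q hq
  · rw [map_zero, Fn.zero_apply, sub_zero]
    exact (hUu z).1 q hq

/-- **A non-trivial class of `Ш¹_S` is not orthogonal to all data.** -/
theorem exists_datum_pairing_ne_zero (hp2 : p ≠ 2) (hpS : (⟨p, Fact.out⟩ : Nat.Primes) ∈ S) (hS : SModule p S X)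
    {f : GQ → X} (hf : IsSha S f) (hne : ¬ IsB1 (⊤ : Subgroup GQ) f) :
    ∃ (c : GQ → GQ → Fn X QMul) (a : Fn (X × X) Idele) (β : GQ → Fn X QMul), IsSha2 S c ∧ Datum S c a β ∧
      clPair p (dExt a) f ≠ 0 := by
  classical
  have hp := hS.tors
  obtain ⟨K, hμ, hK, hX⟩ := hS.level
  obtain ⟨Lf, hLf, hfz⟩ := hf.unr
  obtain ⟨Ld, hLd, hdvd⟩ := exists_level_dvd hp2 S hpS
  set L := (Lf.sup K).sup Ld with hLdef
  have hLS : ∀ q ∉ S, L.UnrAt q := fun q hq => ((hLf q hq).sup (hK q hq)).sup (hLd q hq)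
  have hLK : L.grp ≤ K.grp := ((Lf.sup K).sup_left Ld).trans (Lf.sup_right K)
  have hXL : XLevel p X L := ⟨⟨hμ.mono hLK, dvd_index_of_le ((Lf.sup K).sup_right Ld) hdvd⟩, fun s hs => hX s (hLK hs)⟩
  have hz : IsZ1 (⊤ : Subgroup GQ) L.grp f := hfz.mono le_rfl (((Lf.sup K).sup_left Ld).trans (Lf.sup_left K))
  have hl := L.lvl (H := (⊤ : Subgroup GQ)) le_top
  -- an extension pairing non-trivially
  let d : X →+ Cfun X (⊤ : Subgroup GQ) L.grp :=
    { toFun := fun x => toC (⊤ : Subgroup GQ) L.grp (dd0 x)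
      map_zero' := funext fun Q => by simp [toC, dd0]
      map_add' := fun x y => funext fun Q => by simp [toC, dd0, smul_add]; abel }
  let : Module (ZMod p) (Cfun X (⊤ : Subgroup GQ) L.grp) :=
    AddCommGroup.zmodModule fun F => funext fun Q => hp (F Q)
  have hnot : toC (⊤ : Subgroup GQ) L.grp f ∉ d.range := by
    rintro ⟨x, hx⟩
    refine hne ⟨x, fun g hg => ?_⟩
    have hdl : IsLvl1 (⊤ : Subgroup GQ) L.grp (dd0 (Γ := GQ) x) := fun g _ s hs => by
      simp only [dd0, mul_smul, hXL.triv s hs]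
    rw [← ofC_toC hl hz.1 hg, ← hx]
    exact ofC_toC hl hdl hg
  obtain ⟨φ, hφ, hφ0⟩ := exists_functional_aux (p := p) d.range hnot
  obtain ⟨e, he, hev⟩ := exists_ext_of_functional hp2 hXL hp ⊤ (φ.comp (⊤ : AddSubgroup _).subtype)
    fun x => ⟨trivial, hφ0 _ ⟨x, rfl⟩⟩
  have he0 : clPair p e f ≠ 0 := by rw [hev f hz trivial]; exact hφ
  -- make the twisting trivial
  obtain ⟨n, hn, w, hw⟩ := exists_nsmul_isB1_fn (Fact.out : p.Prime) hl hXL.triv he.coc fun x =>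
    exists_nsmul_isB1_cl hp2 L (L.lvl fun s hs => MulAction.mem_stabilizer_iff.2 (hXL.triv s hs x)) le_rfl
      hXL.good.mu (isZ1_apply he.coc x fun s hs => hXL.triv s hs x)
  set a1 := n • e.1 - del w with ha1
  have ha1g : ∀ g : GQ, g • a1 = a1 := fun g =>
    untwist_invariant he (hw g trivial)
  have ha1s : a1 ∈ symCoc := sub_mem (nsmul_mem he.sym n) (del_mem_symCoc w)
  obtain ⟨a2, ha2, ha2f, ha2c⟩ := exists_lift_symCoc hp L ha1s
    ((fn_fixed_prod hXL.triv a1).1 fun s _ => ha1g s)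
  obtain ⟨m, hm, hcl⟩ := exists_class_multiple hpS L hLS
  obtain ⟨L5, hL5, hL5S, hdec⟩ := hcl (fun z => a2 z) ha2f
  obtain ⟨D, U, hD, hU, hDf, hUu, hsplit⟩ := exists_split_principal hp L5 (nsmul_mem ha2 m) hdec
  have hX5 : ∀ s ∈ L5.grp, ∀ x : X, s • x = x := fun s hs => hXL.triv s (hL5 hs)
  have hpr : Fn.map principal D = m • a2 - U := Fn.ext fun z => by
    rw [Fn.map_apply, Fn.sub_apply, hsplit z, add_sub_cancel_right]
  have hclU : clFn U = m • a1 := by
    rw [show U = m • a2 - Fn.map principal D by rw [hpr, sub_sub_cancel], map_sub, clFn_principal,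
      map_nsmul, ha2c, sub_zero]
  have hinv : ∀ g : GQ, ∃ Δ : Fn (X × X) QMul, Fn.map principal Δ = g • U - U := fun g => by
    have h0 : clFn (g • U - U) = 0 := by
      rw [map_sub, clFn_smul, hclU, smul_nsmul_fix (ha1g g) m, sub_self]
    have e : ∀ z, ∃ b, principal b = (g • U - U) z := fun z =>
      toCl_eq_zero_iff.1 (congrArg (fun F : Fn (X × X) Cl => F z) h0)
    exact ⟨fun z => (e z).choose, Fn.ext fun z => (e z).choose_spec⟩
  obtain ⟨c, β, hc, hd⟩ := exists_datum_of_units hpS hp L5 hL5S hX5 hU hUu hinv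
  refine ⟨c, U, β, hc, hd, ?_⟩
  have e3 : dExt U = m • ((a1, 0) : Pre GQ X Cl) := Prod.ext hclU (funext fun _ => (smul_zero (A := Fn X Cl) m).symm)
  have he1 : IsExt (⊤ : Subgroup GQ) L.grp ((a1, 0) : Pre GQ X Cl) := isExt_zero_snd ha1s fun g _ => ha1g g
  have e4 : clPair p ((a1, 0) : Pre GQ X Cl) f = (n : ZMod p) * clPair p e f := by
    rw [← clPair_nsmul_left hp2 hXL hp he hz]
    exact clPair_congr hp2 hXL hp (he.nsmul n) hz (untwist_rel fun g => hw g trivial)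
  rw [e3, clPair_nsmul_left hp2 hXL hp he1 hz, e4]
  exact mul_ne_zero (by rwa [Ne, ZMod.natCast_eq_zero_iff]) (mul_ne_zero (by rwa [Ne, ZMod.natCast_eq_zero_iff]) he0)

end FLTAgent.Global
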