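import Fermat.Agent.Global.Bridge.Pairing
import Fermat.Prelude.Def_GroupCohomology_ContinuousUnramified

/-!
The twisted dual of a representation, and the additive functions on it with values in roots of unity.
-/

set_option autoImplicit false
set_option linter.unusedSectionVars false
set_option linter.unusedVariables false
set_option synthInstance.maxHeartbeats 100000

noncomputable section

namespace FLTAgent.Global

variable {p : ℕ} [Fact p.Prime] (M : Rep (ZMod p) GQ)

/-- The twisted dual, as a module over the Galois group. -/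
def TwDual : Type := Module.Dual (ZMod p) M

instance : AddCommGroup (TwDual M) := inferInstanceAs (AddCommGroup (Module.Dual (ZMod p) M))

instance : Module (ZMod p) (TwDual M) := inferInstanceAs (Module (ZMod p) (Module.Dual (ZMod p) M))

instance : DistribMulAction GQ (TwDual M) where
  smul g ξ := (M.dualTwist (ExtCitation.cycloChar p)).ρ g ξ
  one_smul ξ := by
    show (M.dualTwist (ExtCitation.cycloChar p)).ρ 1 ξ = ξ
    rw [map_one]; rfl
  mul_smul g h ξ := by
    show (M.dualTwist (ExtCitation.cycloChar p)).ρ (g * h) ξ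
      = (M.dualTwist (ExtCitation.cycloChar p)).ρ g ((M.dualTwist (ExtCitation.cycloChar p)).ρ h ξ)
    rw [map_mul]; rfl
  smul_zero g := map_zero ((M.dualTwist (ExtCitation.cycloChar p)).ρ g)
  smul_add g ξ η := map_add ((M.dualTwist (ExtCitation.cycloChar p)).ρ g) ξ η

instance [FiniteDimensional (ZMod p) M] : Finite (TwDual M) :=
  have := Module.finite_of_finite (ZMod p) (M := Module.Dual (ZMod p) M)
  inferInstanceAs (Finite (Module.Dual (ZMod p) M))

/-- Evaluation. -/
def TwDual.ev : TwDual M →+ M →+ ZMod p where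
  toFun ξ := LinearMap.toAddMonoidHom (show Module.Dual (ZMod p) M from ξ)
  map_zero' := rfl
  map_add' _ _ := rfl

variable {M}

lemma TwDual.ev_smul (g : GQ) (ξ : TwDual M) (m : M) :
    TwDual.ev M (g • ξ) m = (ExtCitation.cycloChar p g : ZMod p) * TwDual.ev M ξ (M.ρ g⁻¹ m) := rfl

lemma TwDual.tors (ξ : TwDual M) : p • ξ = 0 := by
  rw [← Nat.cast_smul_eq_nsmul (ZMod p), ZMod.natCast_self, zero_smul]

section roots

variable (p)

/-- The prime as an element of the type of primes. -/
abbrev pP : Nat.Primes := ⟨p, Fact.out⟩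

lemma cycloChar_eq_cyc (g : GQ) : ExtCitation.cycloChar p g = cyc (pP p) g :=
  ((zeta_spec (pP p)).autToPow_eq_modularCyclotomicCharacter p ℚ g).symm

/-- The chosen root of unity, written additively. -/
def zq : QMul := toQMul (zeta (pP p)) ((zeta_spec (pP p)).ne_zero (Fact.out : p.Prime).ne_zero)

lemma p_nsmul_zq : p • zq p = 0 :=
  qmul_ext (by rw [qval_nsmul, zq, qval_toQMul, qval_zero]; exact (zeta_spec (pP p)).pow_eq_one)

/-- `x ↦ ζ ^ x`. -/
def eMu : ZMod p →+ QMul :=
  ZMod.lift p ⟨zmultiplesHom QMul (zq p), by rw [zmultiplesHom_apply, natCast_zsmul, p_nsmul_zq]⟩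

lemma eMu_natCast (n : ℕ) : eMu p (n : ZMod p) = n • zq p := by
  rw [eMu, show (n : ZMod p) = ((n : ℤ) : ZMod p) by push_cast; rfl, ZMod.lift_coe]
  exact natCast_zsmul _ _

lemma smul_eMu (g : GQ) (x : ZMod p) :
    g • eMu p x = eMu p ((ExtCitation.cycloChar p g : ZMod p) * x) := by
  have hz : g • zq p = (cyc (pP p) g : ZMod p).val • zq p := qmul_ext (by
    rw [qval_smul, qval_nsmul, zq, qval_toQMul]; exact cyc_spec (pP p) g)
  have h1 : g • eMu p x = g • (x.val • zq p) := by rw [← eMu_natCast, ZMod.natCast_zmod_val]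
  have h2 : eMu p ((ExtCitation.cycloChar p g : ZMod p) * x) =
      ((cyc (pP p) g : ZMod p).val * x.val) • zq p := by
    rw [← eMu_natCast, Nat.cast_mul, ZMod.natCast_zmod_val, ZMod.natCast_zmod_val, cycloChar_eq_cyc]
  rw [h1, h2, smul_comm g, hz, ← mul_smul, mul_comm]

lemma eMu_injective : Function.Injective (eMu p) := by
  refine (injective_iff_map_eq_zero _).2 fun x hx => ?_
  rw [← ZMod.natCast_zmod_val x, eMu_natCast] at hx
  have h := congrArg qval hx
  rw [qval_nsmul, zq, qval_toQMul, qval_zero, (zeta_spec (pP p)).pow_eq_one_iff_dvd] at h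
  rw [← ZMod.natCast_zmod_val x, ZMod.natCast_eq_zero_iff]
  exact h

lemma exists_eMu {t : QMul} (ht : p • t = 0) : ∃ x : ZMod p, eMu p x = t := by
  have h := congrArg qval ht
  rw [qval_nsmul, qval_zero] at h
  obtain ⟨i, -, hi⟩ := (zeta_spec (pP p)).eq_pow_of_pow_eq_one h
  exact ⟨i, qmul_ext (by rw [eMu_natCast, qval_nsmul, zq, qval_toQMul, hi])⟩

end roots

variable (M) in
/-- An element as an additive function on the twisted dual, with values in roots of unity. -/
def thMap : M →+ Fn (TwDual M) QMul where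
  toFun m := fun ξ => eMu p (TwDual.ev M ξ m)
  map_zero' := Fn.ext fun ξ => by
    show eMu p (TwDual.ev M ξ 0) = 0
    rw [map_zero, map_zero]
  map_add' m m' := Fn.ext fun ξ => by
    show eMu p (TwDual.ev M ξ (m + m')) = eMu p (TwDual.ev M ξ m) + eMu p (TwDual.ev M ξ m')
    rw [map_add, map_add]

lemma thMap_apply (m : M) (ξ : TwDual M) : thMap M m ξ = eMu p (TwDual.ev M ξ m) := rfl

lemma thMap_smul (g : GQ) (m : M) : thMap M (M.ρ g m) = g • thMap M m := by
  refine Fn.ext fun ξ => ?_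
  rw [Fn.smul_apply, thMap_apply, thMap_apply, smul_eMu, TwDual.ev_smul, inv_inv, ← mul_assoc,
    ← Units.val_mul, ← map_mul, mul_inv_cancel, map_one, Units.val_one, one_mul]

lemma del_thMap (m : M) : del (thMap M m) = 0 := by
  refine Fn.ext fun x => ?_
  obtain ⟨ξ, η⟩ := x
  rw [del_apply, thMap_apply, thMap_apply, thMap_apply, map_add (TwDual.ev M), AddMonoidHom.add_apply,
    map_add, sub_self]
  rfl

lemma thMap_injective : Function.Injective (thMap M) := by
  refine (injective_iff_map_eq_zero _).2 fun m hm => ?_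
  refine (Module.forall_dual_apply_eq_zero_iff (ZMod p) m).1 fun ξ => ?_
  have h : eMu p (TwDual.ev M (ξ : TwDual M) m) = 0 := congrFun hm (ξ : TwDual M)
  exact eMu_injective p (h.trans (map_zero (eMu p)).symm)

lemma exists_thMap [FiniteDimensional (ZMod p) M] {w : Fn (TwDual M) QMul} (hw : del w = 0) :
    ∃ m, thMap M m = w := by
  have hadd : ∀ ξ η : TwDual M, w (ξ + η) = w ξ + w η := fun ξ η =>
    (sub_eq_zero.1 ((del_apply w ξ η).symm.trans (congrFun hw (ξ, η)))).symm
  let W : TwDual M →+ QMul := AddMonoidHom.mk' w hadd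
  have htors : ∀ ξ, p • w ξ = 0 := fun ξ => by
    show p • W ξ = 0
    rw [← map_nsmul, TwDual.tors, map_zero]
  choose t ht using fun ξ => exists_eMu p (htors ξ)
  have tadd : ∀ ξ η, t (ξ + η) = t ξ + t η := fun ξ η =>
    eMu_injective p (by rw [map_add, ht, ht, ht, hadd])
  let t' : Module.Dual (ZMod p) (Module.Dual (ZMod p) M) :=
    (AddMonoidHom.mk' (t : Module.Dual (ZMod p) M → ZMod p) tadd).toZModLinearMap p
  refine ⟨(Module.evalEquiv (ZMod p) M).symm t', Fn.ext fun ξ => ?_⟩
  rw [thMap_apply, ← ht ξ]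
  exact congrArg (eMu p) (Module.apply_evalEquiv_symm_apply (R := ZMod p) (M := M) ξ t')

open scoped Classical in
variable (M) in
/-- A left inverse of `thMap`. -/
def thInv (w : Fn (TwDual M) QMul) : M := if h : ∃ m, thMap M m = w then h.choose else 0

lemma thMap_thInv [FiniteDimensional (ZMod p) M] {w : Fn (TwDual M) QMul} (hw : del w = 0) :
    thMap M (thInv M w) = w := by
  rw [thInv, dif_pos (exists_thMap hw)]
  exact (exists_thMap hw).choose_spec

lemma thMap_dd1 (x : GQ → M) (g k : GQ) :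
    thMap M (M.ρ g (x k) - x (g * k) + x g) = dd1 (fun g => thMap M (x g)) g k := by
  rw [map_add, map_sub, thMap_smul]; rfl

section levels

variable {S : Finset Nat.Primes}

lemma exists_level_le_fixing {F : IntermediateField ℚ QQbar} (hF : F.IsUnramifiedOutside S) :
    ∃ L : Level, (∀ q ∉ S, L.UnrAt q) ∧ L.grp ≤ F.fixingSubgroup := by
  have := hF.1
  obtain ⟨K, hK⟩ := exists_level F
  have := K.grp_normal
  obtain ⟨L, hL⟩ := exists_level_grp_eq K (H := F.fixingSubgroup.normalCore)
    (Subgroup.normal_le_normalCore.2 (IntermediateField.fixingSubgroup_antitone hK))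
    (Subgroup.normalCore_normal _)
  refine ⟨L, fun q hq => unrAt_of_inertiaAt fun g hg => ?_, hL.le.trans (Subgroup.normalCore_le _)⟩
  rw [hL]
  intro τ
  exact hF.2 q hq _ (Frobenius.liesOverPrime_smul (liesOverPrime_padicPlace q) τ)
    (Frobenius.inertiaSubgroupIn_conj hg τ)

lemma isUnramifiedOutside_fld {L : Level} (h : ∀ q ∉ S, L.UnrAt q) : L.fld.IsUnramifiedOutside S :=
  ⟨L.fin, h⟩

theorem sModule_twDual [FiniteDimensional (ZMod p) M] (hpS : pP p ∈ S)
    (hsm : ∀ m : M, ∃ F : IntermediateField ℚ QQbar, FiniteDimensional ℚ F ∧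
      ∀ s ∈ F.fixingSubgroup, M.ρ s m = m)
    (hMur : ∀ q : Nat.Primes, q ∉ S → ∀ A : ValuationSubring QQbar,
      A.LiesOverPrime (q : ℕ) → ∀ g ∈ A.inertiaSubgroupIn ℚ, M.ρ g = 1) :
    SModule p S (TwDual M) := by
  refine ⟨TwDual.tors, ?_⟩
  have : Finite M := Module.finite_of_finite (ZMod p)
  set N : Subgroup GQ := M.ρ.ker ⊓ (cyc (pP p)).ker with hN
  obtain ⟨Z, hZ⟩ := exists_level_le_ker_cyc (pP p)
  have hm : ∀ m : M, ∃ L : Level, ∀ s ∈ L.grp, M.ρ s m = m := fun m => by
    obtain ⟨F, hF, h⟩ := hsm m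
    obtain ⟨L, hL⟩ := exists_level F
    exact ⟨L, fun s hs => h s (IntermediateField.fixingSubgroup_antitone hL hs)⟩
  choose Lm hLm using hm
  obtain ⟨L0, hL0Z, hL0⟩ := exists_level_le Z Lm
  have hle : L0.grp ≤ N := fun s hs => ⟨LinearMap.ext fun m => hLm m s (hL0 m hs), hZ (hL0Z hs)⟩
  obtain ⟨K, hK⟩ := exists_level_grp_eq L0 hle inferInstance
  refine ⟨K, fun s hs z hz => ?_, fun q hq => unrAt_of_inertiaAt fun g hg => ?_, fun s hs ξ => ?_⟩
  · rw [hK] at hs
    obtain ⟨i, -, rfl⟩ := (zeta_spec (pP p)).eq_pow_of_pow_eq_one hz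
    rw [map_pow, (cyc_eq_one_iff (pP p)).1 hs.2]
  · rw [hK]
    exact ⟨hMur q hq _ (liesOverPrime_padicPlace q) g hg,
      cyc_inertia (pP p) q.2 (fun h => hq ((Subtype.ext h : q = pP p) ▸ hpS)) (liesOverPrime_padicPlace q) hg⟩
  · rw [hK] at hs
    have hs1 : M.ρ s⁻¹ = 1 := (inv_mem (show s ∈ M.ρ.ker from hs.1) : s⁻¹ ∈ M.ρ.ker)
    refine LinearMap.ext fun m => ?_
    show TwDual.ev M (s • ξ) m = TwDual.ev M ξ m
    rw [TwDual.ev_smul, cycloChar_eq_cyc, show cyc (pP p) s = 1 from hs.2, Units.val_one, one_mul, hs1]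
    rfl

end levels

end FLTAgent.Global
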