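import Fermat.Agent.Global.Bridge.Fn
import Fermat.Agent.Global.Duality.Levels

/-!
Finite levels, units detected through coboundaries, and radicals that are unramified outside `S`.
-/

set_option autoImplicit false
set_option linter.unusedSectionVars false
set_option linter.unusedVariables false
set_option synthInstance.maxHeartbeats 100000

noncomputable section

namespace FLTAgent.Global

/-- The component at `q` of a principal idele. -/
def qc (q : Nat.Primes) : QMul →+ Semi q := (comp q).comp principal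

lemma qc_apply (q : Nat.Primes) (a : QMul) : qc q a = comp q (principal a) := rfl

lemma qc_smul (q : Nat.Primes) (g : GQ) (a : QMul) : qc q (g • a) = g • qc q a := by
  rw [qc_apply, qc_apply, principal_smul, comp_smul]

lemma sval_qc (q : Nat.Primes) (a : QMul) (g : GQ) : sval (qc q a) g = emb q (g (qval a)) := rfl

lemma qc_injective (q : Nat.Primes) : Function.Injective (qc q) := fun a b h => by
  have := congrArg (fun x => sval x 1) h
  exact Additive.toMul.injective (Units.ext ((emb q).injective this))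

lemma qval_nsmul' (n : ℕ) (a : QMul) : qval (n • a) = qval a ^ n := by
  induction n with
  | zero => rw [zero_nsmul, qval_zero, pow_zero]
  | succ n ih => rw [succ_nsmul, qval_add, ih, pow_succ]

lemma exists_level_fix_semi {q : Nat.Primes} (x : Semi q) :
    ∃ L : Level, ∀ s ∈ L.grp, s • x = x := by
  obtain ⟨L, hL⟩ := x.2.2
  exact ⟨L, fun s hs => Subtype.ext (funext fun g => hL g s hs)⟩

lemma exists_level_fix_idele (x : Idele) : ∃ L : Level, ∀ s ∈ L.grp, s • x = x := by
  obtain ⟨L, hL⟩ := x.2.1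
  exact ⟨L, fun s hs => idele_ext fun q => hL q s hs⟩

lemma exists_level_fix_qmul (a : QMul) : ∃ L : Level, ∀ s ∈ L.grp, s • a = a := by
  obtain ⟨L, hL⟩ := exists_level_mem (qval a)
  exact ⟨L, fun s hs => Additive.toMul.injective (Units.ext
    ((IntermediateField.mem_fixingSubgroup_iff _ _).1 hs _ hL))⟩

/-- A finite family of elements of finite level has a common level below a given one. -/
theorem exists_level_fix_family {A : Type*} [AddCommGroup A] [DistribMulAction GQ A]
    (hA : ∀ a : A, ∃ L : Level, ∀ s ∈ L.grp, s • a = a) (L₀ : Level) {Y : Type*} [Finite Y] (v : Y → A) :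
    ∃ L : Level, L.grp ≤ L₀.grp ∧ ∀ y, ∀ s ∈ L.grp, s • v y = v y :=
  exists_forall_fix (Γ := GQ) Level.sup Level.grp Level.sup_grp_le L₀ (fun y s => s • v y = v y) fun y => hA (v y)

/-- A function has finite level. -/
theorem exists_level_fix_fn {A : Type*} [AddCommGroup A] [DistribMulAction GQ A]
    (hA : ∀ a : A, ∃ L : Level, ∀ s ∈ L.grp, s • a = a) (L₀ : Level) {Y : Type*} [Finite Y] [MulAction GQ Y]
    (hY : ∀ s ∈ L₀.grp, ∀ y : Y, s • y = y) (w : Fn Y A) :
    ∃ L : Level, L.grp ≤ L₀.grp ∧ ∀ s ∈ L.grp, s • w = w := by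
  obtain ⟨L, hL, h⟩ := exists_level_fix_family hA L₀ (fun y => w y)
  refine ⟨L, hL, fun s hs => Fn.ext fun y => ?_⟩
  rw [Fn.smul_apply, hY _ (hL (inv_mem hs)), h y s hs]

variable {q : Nat.Primes}

lemma semiUnit_of_nsmul {n : ℕ} (hn : n ≠ 0) {x : Semi q} (h : n • x ∈ semiUnit q) : x ∈ semiUnit q := by
  intro g
  have := h g
  rwa [sval_nsmul, norm_pow, pow_eq_one_iff_of_nonneg (norm_nonneg _) hn] at this

/-- A function whose coboundary is a unit is a unit. -/
theorem semiUnit_of_del {X : Type*} [AddCommGroup X] [DistribMulAction GQ X] {p : ℕ} (hp0 : p ≠ 0)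
    (hp : ∀ x : X, p • x = 0) {V : Fn X (Semi q)} (h : ∀ z, del V z ∈ semiUnit q) (x : X) :
    V x ∈ semiUnit q := by
  refine semiUnit_of_nsmul hp0 ?_
  rw [← sum_del_range V hp x]
  exact sum_mem fun k _ => h _

/-- Inertia fixes a prime-to-`q` root of unity ratio. -/
theorem sval_smul_eq_of_inertia {n : ℕ} (hn : (q : ℕ).Coprime n) {V x : Semi q} {s : GQ}
    (hs : s ∈ inertiaAt q) (hx : s • x = x) (hnorm : ‖sval V 1‖ = ‖sval x 1‖)
    (htor : sval (s • V) 1 ^ n = sval V 1 ^ n) : sval (s • V) 1 = sval V 1 := by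
  obtain ⟨L₀, -, hL₀⟩ := exists_level_fix_family (fun a => exists_level_fix_semi (q := q) a) Level.bot
    (fun b : Bool => if b then V else x)
  have hV : V ∈ fixSub (A := Semi q) L₀.grp := fun t ht => hL₀ true t ht
  have hxL : x ∈ fixSub (A := Semi q) L₀.grp := fun t ht => hL₀ false t ht
  have hsd := inertiaAt_le_dec_sup (L := L₀) hs
  have hnrm := L₀.grp_normal
  rw [← SetLike.mem_coe, Subgroup.mul_normal] at hsd
  obtain ⟨_, ⟨τ, rfl⟩, t, ht, e⟩ := hsd
  have he : ∀ y : Semi q, y ∈ fixSub (A := Semi q) L₀.grp → sval (s • y) 1 = τ (sval y 1) := fun y hy => by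
    rw [sval_smul, one_mul, ← e, sval_mul_right hy _ ht]
    simpa using sval_loc y τ 1
  set u : valField L₀ q := ⟨sval V 1 / sval x 1,
    div_mem (sval_mem_valField hV 1) (sval_mem_valField hxL 1)⟩ with hu
  have hu1 : ‖(u : Kq q)‖ = 1 := by
    rw [hu, norm_div, hnorm, div_self (norm_ne_zero_iff.2 (sval_ne_zero x 1))]
  have hlt := norm_sub_lt_of_inertia (L := L₀) (Subgroup.mem_sup_left hs) ht e.symm u hu1.le
  have hxτ : τ (sval x 1) = sval x 1 := by rw [← he x hxL, hx]
  rw [he V hV] at htor ⊢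
  have hu0 : (u : Kq q) ≠ 0 := fun h => by rw [h, norm_zero] at hu1; exact zero_ne_one hu1
  have hratio : τ (u : Kq q) / (u : Kq q) = τ (sval V 1) / sval V 1 := by
    rw [hu, map_div₀, hxτ, div_div_div_cancel_right₀ (sval_ne_zero x 1)]
  have h1 := eq_one_of_pow_eq_one hn (t := τ (u : Kq q) / (u : Kq q))
    (by rw [hratio, div_pow, htor, div_self (pow_ne_zero _ (sval_ne_zero V 1))])
    (by rw [div_sub_one hu0, norm_div, hu1, div_one]; exact hlt)
  rw [hratio] at h1
  exact (div_eq_one_iff_eq (sval_ne_zero V 1)).1 h1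

/-- Radicals unramified outside `S` have a level unramified outside `S`. -/
theorem exists_level_roots (S : Finset Nat.Primes) (L : Level) (hL : ∀ q ∉ S, L.UnrAt q) {ι : Type*}
    [Finite ι] (ρ : ι → QMul)
    (h : ∀ i, ∀ q ∉ S, ∃ n : ℕ, (q : ℕ).Coprime n ∧ n • ρ i ∈ fixSub (A := QMul) L.grp ∧
      ∃ x ∈ fixSub (A := Semi q) L.grp, qc q (ρ i) - x ∈ semiUnit q) :
    ∃ L' : Level, L'.grp ≤ L.grp ∧ (∀ q ∉ S, L'.UnrAt q) ∧ ∀ i, ρ i ∈ fixSub (A := QMul) L'.grp := by
  obtain ⟨M, hML, hM⟩ := exists_level_fix_family exists_level_fix_qmul L ρ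
  let N : Subgroup GQ :=
    { carrier := {s | s ∈ L.grp ∧ ∀ i, ∀ g : GQ, s • g • ρ i = g • ρ i}
      one_mem' := ⟨L.grp.one_mem, fun i g => one_smul _ _⟩
      mul_mem' := fun {a b} ha hb => ⟨mul_mem ha.1 hb.1, fun i g => by rw [mul_smul, hb.2, ha.2]⟩
      inv_mem' := fun {a} ha => ⟨inv_mem ha.1, fun i g => inv_smul_eq_iff.2 (ha.2 i g).symm⟩ }
  have hn : N.Normal := ⟨fun a ha g => ⟨L.grp_normal.conj_mem a ha.1 g, fun i k => by
    rw [mul_smul, mul_smul, ← mul_smul g⁻¹ k, ha.2, ← mul_smul, mul_inv_cancel_left]⟩⟩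
  have hMN : M.grp ≤ N := fun s hs => ⟨hML hs, fun i g => by
    rw [← mul_smul, show s * g = g * (g⁻¹ * s * g) by group, mul_smul,
      hM i _ (by simpa using M.grp_normal.conj_mem s hs g⁻¹)]⟩
  obtain ⟨L', hL'⟩ := exists_level_grp_eq M hMN hn
  refine ⟨L', hL' ▸ fun s hs => hs.1, fun q hq => unrAt_of_inertiaAt ?_, fun i s hs => ?_⟩
  · rw [hL']
    intro s hs
    have hsL := inertiaAt_le_of_unrAt (hL q hq) hs
    refine ⟨hsL, fun i g => ?_⟩
    obtain ⟨n, hn, hfix, x, hx, hu⟩ := h i q hq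
    have hgx : s • g • x = g • x := by
      rw [← mul_smul, show s * g = g * (g⁻¹ * s * g) by group, mul_smul,
        hx _ (by simpa using L.grp_normal.conj_mem s hsL g⁻¹)]
    have hgfix : s • g • (n • ρ i) = g • (n • ρ i) := by
      rw [← mul_smul, show s * g = g * (g⁻¹ * s * g) by group, mul_smul,
        hfix _ (by simpa using L.grp_normal.conj_mem s hsL g⁻¹)]
    have hnorm : ‖sval (qc q (g • ρ i)) 1‖ = ‖sval (g • x) 1‖ := by
      have h1 := smul_mem_semiUnit q hu g 1
      rw [smul_sub, ← qc_smul, sub_eq_add_neg, sval_add, sval_neg, norm_mul, norm_inv,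
        mul_inv_eq_one₀ (norm_ne_zero_iff.2 (sval_ne_zero _ _))] at h1
      exact h1
    have htor : sval (s • qc q (g • ρ i)) 1 ^ n = sval (qc q (g • ρ i)) 1 ^ n := by
      rw [← sval_nsmul, ← sval_nsmul, ← qc_smul, ← map_nsmul, ← map_nsmul, smul_comm n s, smul_comm n g, hgfix]
    have h2 := sval_smul_eq_of_inertia hn hs hgx hnorm htor
    rw [← qc_smul, sval_qc, sval_qc, AlgEquiv.one_apply, AlgEquiv.one_apply] at h2
    exact Additive.toMul.injective (Units.ext ((emb q).injective h2))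
  · rw [hL'] at hs
    simpa using hs.2 i 1

variable {p : ℕ} [Fact p.Prime]

/-- There is a level unramified outside `S` of degree divisible by `p`. -/
theorem exists_level_dvd (hp2 : p ≠ 2) (S : Finset Nat.Primes) (hpS : (⟨p, Fact.out⟩ : Nat.Primes) ∈ S) :
    ∃ L : Level, (∀ q ∉ S, L.UnrAt q) ∧ p ∣ L.grp.index := by
  have hp : p.Prime := Fact.out
  obtain ⟨ζ, hζ⟩ : ∃ ζ : QQbar, IsPrimitiveRoot ζ (p ^ 2) :=
    have : NeZero (p ^ 2) := ⟨pow_ne_zero _ hp.ne_zero⟩
    HasEnoughRootsOfUnity.exists_primitiveRoot QQbar (p ^ 2)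
  have hζ0 := hζ.ne_zero (pow_ne_zero _ hp.ne_zero)
  have hone : (p ^ 2) • toQMul ζ hζ0 = 0 := Additive.toMul.injective (Units.ext (by
    show qval ((p ^ 2) • toQMul ζ hζ0) = qval 0
    rw [qval_nsmul', qval_zero]
    exact hζ.pow_eq_one))
  have hbot : ∀ q ∉ S, Level.bot.UnrAt q := fun q _ A _ s _ => by
    show s ∈ (⊥ : IntermediateField ℚ QQbar).fixingSubgroup
    rw [IntermediateField.fixingSubgroup_bot]
    trivial
  obtain ⟨L, -, hL, hfix⟩ := exists_level_roots S Level.bot hbot (fun _ : Unit => toQMul ζ hζ0) fun _ q hq => by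
    refine ⟨p ^ 2, Nat.Coprime.pow_right 2 ((Nat.coprime_primes q.2 hp).2 fun h => hq ?_), ?_, 0,
      zero_mem _, fun g => ?_⟩
    · rw [show q = ⟨p, Fact.out⟩ from Subtype.ext h]; exact hpS
    · rw [hone]; exact zero_mem _
    · rw [sub_zero, sval_qc]
      refine (pow_eq_one_iff_of_nonneg (norm_nonneg _) (pow_ne_zero 2 hp.ne_zero)).1 ?_
      rw [← norm_pow, ← map_pow, ← map_pow, show qval (toQMul ζ hζ0) ^ p ^ 2 = 1 from hζ.pow_eq_one,
        map_one, map_one, norm_one]
  refine ⟨L, hL, ?_⟩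
  set E := IntermediateField.adjoin ℚ ({ζ} : Set QQbar) with hE
  have hle : L.grp ≤ E.fixingSubgroup := fun s hs => by
    rw [IntermediateField.mem_fixingSubgroup_iff]
    intro x hx
    have hs' : s ζ = ζ := congrArg qval (hfix () s hs)
    exact (IntermediateField.forall_mem_adjoin_smul_eq_self_iff ℚ (S := ({ζ} : Set QQbar)) s).2 (fun y hy => by rw [hy]; exact hs') x hx
  have hint : IsIntegral ℚ ζ := Algebra.IsIntegral.isIntegral ζ
  have : FiniteDimensional ℚ E := IntermediateField.adjoin.finiteDimensional hint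
  refine dvd_trans ?_ (Subgroup.index_dvd_of_le hle)
  rw [← IntermediateField.finrank_eq_fixingSubgroup_index, hE, IntermediateField.adjoin.finrank hint,
    ← Polynomial.cyclotomic_eq_minpoly_rat hζ (pow_pos hp.pos _), Polynomial.natDegree_cyclotomic,
    Nat.totient_prime_pow hp two_pos]
  exact Dvd.intro _ (by rw [show 2 - 1 = 1 from rfl, pow_one])

end FLTAgent.Global
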